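import Fermat.Agent.GelfondCubic.Forms
import Mathlib.NumberTheory.SiegelsLemma
import Mathlib.LinearAlgebra.Matrix.Adjugate
import Mathlib.LinearAlgebra.Matrix.ToLinearEquiv

/-!
# Siegel's lemma over `ℤ[θ]` and the norm to `ℤ[θ]`

Linear equations over `ℤ[X]` in polynomials of bounded degree are equations over `ℤ` in their
coefficients; the determinant of a matrix acting as `γ` is a nonzero polynomial, small at `θ` with
`γ`.
-/

set_option autoImplicit false

noncomputable section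

open Finset Polynomial Matrix
open scoped Matrix.Norms.Elementwise

namespace FA.GelfondCubic

/-- **Siegel's lemma over `ℤ[X]`.** -/
theorem exists_small_solution {Eq Λ : Type*} [Fintype Eq] [Fintype Λ] [Nonempty Eq] [Nonempty Λ]
    (A : Eq → Λ → ℤ[X]) {d δ : ℕ} {B : ℝ} (hB : 1 ≤ B) (hd : ∀ e x, (A e x).natDegree ≤ d)
    (hl : ∀ e x, len (A e x) ≤ B)
    (hcount : 2 * (Fintype.card Eq * (d + δ + 1)) ≤ Fintype.card Λ * (δ + 1)) :
    ∃ p : Λ → ℤ[X], p ≠ 0 ∧ (∀ x, (p x).natDegree ≤ δ) ∧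
      (∀ x, len (p x) ≤ (δ + 1 : ℕ) * ((Fintype.card Λ * (δ + 1) : ℕ) * B)) ∧
      ∀ e, ∑ x, A e x * p x = 0 := by
  classical
  set m := Fintype.card Eq * (d + δ + 1) with hm
  set n := Fintype.card Λ * (δ + 1) with hn
  set M : Matrix (Eq × Fin (d + δ + 1)) (Λ × Fin (δ + 1)) ℤ :=
    Matrix.of fun ek xj => (A ek.1 xj.1 * X ^ (xj.2 : ℕ)).coeff ek.2 with hM
  have hm0 : 0 < m := Nat.mul_pos Fintype.card_pos (Nat.succ_pos _)
  obtain ⟨t, ht0, htM, htn⟩ := Int.Matrix.exists_ne_zero_int_vec_norm_le M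
    (by simp only [Fintype.card_prod, Fintype.card_fin]; omega)
    (by simp only [Fintype.card_prod, Fintype.card_fin]; omega)
  have ht : ∀ xj, |(t xj : ℝ)| ≤ n * B := fun xj => by
    rw [← Int.norm_eq_abs]
    refine (norm_le_pi_norm t xj).trans (htn.trans ?_)
    simp only [Fintype.card_prod, Fintype.card_fin, ← hm, ← hn]
    have hmax : max 1 ‖M‖ ≤ B := by
      refine max_le hB ((Matrix.norm_le_iff (by linarith)).2 fun ek xj => ?_)
      rw [hM, Matrix.of_apply, Int.norm_eq_abs]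
      refine (abs_coeff_le_len _ _).trans ((len_mul_le _ _).trans ?_)
      rw [← monomial_one_right_eq_X_pow, len_monomial, Int.cast_one, abs_one, mul_one]
      exact hl _ _
    have hnr : (1 : ℝ) ≤ n := by exact_mod_cast (show 1 ≤ n by omega)
    have hmn : (2 : ℝ) * m ≤ n := by exact_mod_cast hcount
    have hmr : (1 : ℝ) ≤ m := by exact_mod_cast hm0
    refine le_trans (Real.rpow_le_rpow_of_exponent_le ?_ (show (m : ℝ) / (n - m) ≤ 1 by
      rw [div_le_one (by linarith)]; linarith)) ?_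
    · exact one_le_mul_of_one_le_of_one_le hnr (le_max_left _ _)
    · rw [Real.rpow_one]
      exact mul_le_mul_of_nonneg_left hmax (by positivity)
  refine ⟨fun x => ∑ j : Fin (δ + 1), monomial (j : ℕ) (t (x, j)), fun h => ht0 ?_, fun x => ?_,
    fun x => ?_, fun e => ?_⟩
  · funext ⟨x, j⟩
    have := congrArg (fun p : ℤ[X] => p.coeff j) (congrFun h x)
    simp only [finsetSum_coeff, coeff_monomial, Pi.zero_apply, coeff_zero] at this
    rw [sum_eq_single j (fun i _ hi => if_neg fun e => hi (Fin.ext e))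
      (fun h => absurd (mem_univ j) h), if_pos rfl] at this
    exact this
  · exact natDegree_sum_le_of_forall_le _ _ fun j _ =>
      (natDegree_monomial_le _).trans (Nat.lt_succ_iff.1 j.2)
  · refine (len_sum_le _ _).trans ((sum_le_card_nsmul _ _ _ fun j _ =>
      (len_monomial _ _).le.trans (ht (x, j))).trans_eq ?_)
    rw [card_univ, Fintype.card_fin, nsmul_eq_mul]
  · ext k
    rw [coeff_zero]
    have hexp : ∀ x, A e x * ∑ j : Fin (δ + 1), monomial (j : ℕ) (t (x, j)) =
        ∑ j : Fin (δ + 1), C (t (x, j)) * (A e x * X ^ (j : ℕ)) := fun x => by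
      rw [mul_sum]
      exact sum_congr rfl fun j _ => by rw [← C_mul_X_pow_eq_monomial]; ring
    simp only [hexp, finsetSum_coeff, coeff_C_mul]
    rcases lt_or_ge k (d + δ + 1) with hk | hk
    · have h := congrFun htM (e, ⟨k, hk⟩)
      simp only [mulVec, dotProduct, hM, Matrix.of_apply, Fintype.sum_prod_type,
        Pi.zero_apply] at h
      rw [← h]
      exact sum_congr rfl fun x _ => sum_congr rfl fun j _ => mul_comm _ _
    · refine sum_eq_zero fun x _ => sum_eq_zero fun j _ => ?_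
      rw [coeff_eq_zero_of_natDegree_lt, mul_zero]
      refine natDegree_mul_le.trans_lt ?_
      rw [natDegree_X_pow]
      have := hd e x
      have := j.2
      omega

variable {θ : ℂ}

/-- **The norm to `ℤ[θ]`.** -/
theorem exists_norm_poly_basis {ν : ℕ} (hν : 0 < ν) (w : Fin ν → ℂ) (hw : ∀ i, w i ≠ 0)
    (hindep : ∀ c : Fin ν → ℤ[X], ∑ i, aeval θ (c i) * w i = 0 → c = 0)
    {G : Matrix (Fin ν) (Fin ν) ℤ[X]} {d : ℕ} {B : ℝ} {γ : ℂ}
    (hG : Small G d B) (hact : Acts θ w G γ) (hγ : γ ≠ 0) :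
    G.det ≠ 0 ∧ G.det.natDegree ≤ ν * d ∧ len G.det ≤ ((ν : ℝ) * B) ^ ν ∧
      ‖aeval θ G.det‖ ≤
        ‖γ‖ * ((∑ i, ∑ j, ‖w j‖ / ‖w i‖) * ((ν : ℝ) * (B * max 1 ‖θ‖ ^ d) + 1) ^ ν) := by
  classical
  set i₀ : Fin ν := ⟨0, hν⟩
  have hB : 0 ≤ B := (len_nonneg _).trans (hG i₀ i₀).2
  set φ := (aeval (R := ℤ) θ).toRingHom with hφ
  refine ⟨fun hdet => ?_, ?_, ?_, ?_⟩
  · obtain ⟨c, hc, hcG⟩ := Matrix.exists_vecMul_eq_zero_iff.2 hdet
    have e : (fun l => φ (c l)) ᵥ* G.map φ = 0 := funext fun l => by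
      refine (RingHom.map_vecMul φ G c l).symm.trans ?_
      rw [hcG, Pi.zero_apply, map_zero, Pi.zero_apply]
    have h0 : (fun l => φ (c l)) ⬝ᵥ (G.map φ *ᵥ w) = 0 := by
      rw [dotProduct_mulVec, e, zero_dotProduct]
    rw [show G.map φ *ᵥ w = γ • w from hact, dotProduct_smul, smul_eq_mul] at h0
    exact hc (hindep c ((mul_eq_zero.1 h0).resolve_left hγ))
  · rw [det_apply]
    refine natDegree_sum_le_of_forall_le _ _ fun σ _ => (natDegree_smul_le _ _).trans
      ((natDegree_prod_le _ _).trans ((sum_le_card_nsmul _ _ d fun i _ => (hG _ _).1).trans_eq ?_))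
    rw [card_univ, Fintype.card_fin, smul_eq_mul]
  · rw [det_apply]
    refine (len_sum_le _ _).trans ((sum_le_card_nsmul _ _ (B ^ ν) fun σ _ => ?_).trans ?_)
    · have h : len (∏ i, G (σ i) i) ≤ B ^ ν := by
        refine (len_prod_le _ _).trans ?_
        refine (prod_le_prod (g := fun _ => B) (fun i _ => len_nonneg _)
          fun i _ => (hG _ _).2).trans_eq ?_
        rw [prod_const, card_univ, Fintype.card_fin]
      rcases Int.units_eq_one_or (Equiv.Perm.sign σ) with hs | hs <;> simpa [hs, len_neg] using h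
    · rw [card_univ, Fintype.card_perm, Fintype.card_fin, nsmul_eq_mul, mul_pow]
      exact mul_le_mul_of_nonneg_right (by exact_mod_cast Nat.factorial_le_pow _) (by positivity)
  · set Y := B * max 1 ‖θ‖ ^ d with hY
    set Gc := φ.mapMatrix G with hGc
    have hY0 : 0 ≤ Y := by positivity
    have hent : ∀ i j, ‖Gc i j‖ ≤ Y := fun i j => (norm_aeval_le θ _ (hG i j).1).trans
      (mul_le_mul_of_nonneg_right (hG i j).2 (by positivity))
    have hadj : ∀ i j, ‖Gc.adjugate i j‖ ≤ ((ν : ℝ) * Y + 1) ^ ν := fun i j => by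
      rw [adjugate_apply]
      refine (norm_det_le_prod _).trans ?_
      refine (prod_le_prod (g := fun _ => (ν : ℝ) * Y + 1)
        (fun l _ => sum_nonneg fun _ _ => norm_nonneg _) fun l _ => ?_).trans_eq ?_
      · refine le_trans (sum_le_sum (g := fun r => Y + if r = j then 1 else 0) fun r _ => ?_) ?_
        · rcases eq_or_ne r j with rfl | hr
          · rw [updateRow_self, if_pos rfl]
            by_cases hl : l = i
            · simp [hl, hY0]
            · simp [hl]
              linarith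
          · rw [updateRow_ne hr, if_neg hr, add_zero]
            exact hent r l
        · simp [sum_add_distrib]
      · rw [prod_const, card_univ, Fintype.card_fin]
    have e := congrFun (show Gc.adjugate *ᵥ (Gc *ᵥ w) = Gc.det • w by
      rw [mulVec_mulVec, adjugate_mul, smul_mulVec, one_mulVec]) i₀
    rw [show Gc *ᵥ w = γ • w from hact, mulVec_smul, Pi.smul_apply, Pi.smul_apply,
      smul_eq_mul, smul_eq_mul] at e
    have hdet : aeval θ G.det = Gc.det := by rw [hGc, ← RingHom.map_det]; rfl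
    rw [hdet]
    have hwp : 0 < ‖w i₀‖ := norm_pos_iff.2 (hw i₀)
    refine le_of_mul_le_mul_right ?_ hwp
    rw [← norm_mul, ← e, norm_mul, mul_assoc ‖γ‖]
    refine mul_le_mul_of_nonneg_left ?_ (norm_nonneg _)
    have hs : ∑ j, ‖w j‖ ≤ (∑ i, ∑ j, ‖w j‖ / ‖w i‖) * ‖w i₀‖ := by
      rw [← div_le_iff₀ hwp, sum_div]
      exact single_le_sum (f := fun i => ∑ j, ‖w j‖ / ‖w i‖)
        (fun _ _ => sum_nonneg fun _ _ => by positivity) (mem_univ i₀)
    rw [mulVec, dotProduct]
    refine (norm_sum_le _ _).trans ((sum_le_sum (g := fun j =>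
      ((ν : ℝ) * Y + 1) ^ ν * ‖w j‖) fun j _ => ?_).trans ?_)
    · rw [norm_mul]
      exact mul_le_mul_of_nonneg_right (hadj _ _) (norm_nonneg _)
    · rw [← mul_sum, mul_comm ((∑ i, ∑ j, ‖w j‖ / ‖w i‖)), mul_assoc]
      exact mul_le_mul_of_nonneg_left hs (by positivity)

variable {β lg : ℂ} (D : Data θ β lg)

/-- The sum of the `|w j| / |w i|`. -/
def spread : ℝ := ∑ i, ∑ j, ‖D.w j‖ / ‖D.w i‖

/-- The norm for the data. -/
theorem exists_norm_poly {G : Matrix (Fin D.ν) (Fin D.ν) ℤ[X]} {d : ℕ} {B : ℝ} {γ : ℂ}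
    (hG : Small G d B) (hact : Acts θ D.w G γ) (hγ : γ ≠ 0) :
    G.det ≠ 0 ∧ G.det.natDegree ≤ D.ν * d ∧ len G.det ≤ ((D.ν : ℝ) * B) ^ D.ν ∧
      ‖aeval θ G.det‖ ≤
        ‖γ‖ * (spread D * ((D.ν : ℝ) * (B * max 1 ‖θ‖ ^ d) + 1) ^ D.ν) :=
  exists_norm_poly_basis D.hν D.w D.hw D.indep hG hact hγ

end FA.GelfondCubic

end
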