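import Mathlib.Analysis.Complex.ExponentialBounds
import Mathlib.Data.Nat.Log
import Mathlib.Order.Filter.AtTopBot.Basic
import Mathlib.Data.Nat.Sqrt

/-!
# The parameters

With `ℓ = log₂ N` and `k = ℓ ^ (1 / 4)` the exponents are measured in `unitV N = N ³ k` for the
degrees and `unitU N = N ³ (k + ℓ / k ³)` for the heights; `unitU N unitV N = o (N ⁶ log N)`.
-/

set_option autoImplicit false

noncomputable section

open Filter

namespace FA.GelfondCubic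

/-- The slowly growing parameter. -/
def slowPar (N : ℕ) : ℕ := Nat.sqrt (Nat.sqrt (Nat.log 2 N))

/-- The unit of the degrees. -/
def unitV (N : ℕ) : ℝ := (N : ℝ) ^ 3 * slowPar N

/-- The unit of the heights. -/
def unitU (N : ℕ) : ℝ :=
  (N : ℝ) ^ 3 * ((slowPar N : ℝ) + (Nat.log 2 N : ℝ) / (slowPar N : ℝ) ^ 3)

theorem slowPar_pow_four_le (N : ℕ) : slowPar N ^ 4 ≤ Nat.log 2 N := by
  rw [show 4 = 2 * 2 from rfl, pow_mul]
  exact (Nat.pow_le_pow_left (Nat.sqrt_le' _) 2).trans (Nat.sqrt_le' _)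

theorem slowPar_le_log (N : ℕ) : slowPar N ≤ Nat.log 2 N :=
  (Nat.le_self_pow (by norm_num) _).trans (slowPar_pow_four_le N)

theorem slowPar_pow_le (N : ℕ) {i : ℕ} (hi : 1 ≤ i) (hi' : i ≤ 4) : slowPar N ^ i ≤ N := by
  rcases Nat.eq_zero_or_pos (slowPar N) with h | h
  · rw [h, zero_pow (by omega)]; exact Nat.zero_le _
  · exact (Nat.pow_le_pow_right h hi').trans ((slowPar_pow_four_le N).trans (Nat.log_le_self 2 N))

theorem tendsto_slowPar : Tendsto slowPar atTop atTop :=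
  tendsto_atTop_atTop.2 fun b => ⟨2 ^ (b ^ 4), fun N hN => by
    refine Nat.le_sqrt'.2 (Nat.le_sqrt'.2 ?_)
    rw [← pow_mul]
    exact Nat.le_log_of_pow_le one_lt_two hN⟩

theorem log_succ_le (N : ℕ) : Nat.log 2 (N + 1) ≤ Nat.log 2 N + 1 := by
  rcases Nat.eq_zero_or_pos N with rfl | h
  · simp
  · rw [← Nat.log_mul_base one_lt_two h.ne']
    exact Nat.log_mono_right (by omega)

theorem slowPar_le_succ (N : ℕ) : slowPar N ≤ slowPar (N + 1) :=
  Nat.sqrt_le_sqrt (Nat.sqrt_le_sqrt (Nat.log_mono_right N.le_succ))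

theorem slowPar_succ_le (N : ℕ) : slowPar (N + 1) ≤ slowPar N + 1 :=
  ((Nat.sqrt_le_sqrt
    ((Nat.sqrt_le_sqrt (log_succ_le N)).trans (Nat.sqrt_succ_le_succ_sqrt _))).trans
    (Nat.sqrt_succ_le_succ_sqrt _))

variable {N : ℕ}

theorem one_le_of_slowPar (hk : 1 ≤ slowPar N) : 1 ≤ N ∧ 1 ≤ Nat.log 2 N :=
  ⟨hk.trans ((slowPar_le_log N).trans (Nat.log_le_self 2 N)), hk.trans (slowPar_le_log N)⟩

theorem unitV_le_unitU (N : ℕ) : unitV N ≤ unitU N := by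
  refine mul_le_mul_of_nonneg_left (le_add_of_nonneg_right (by positivity)) (by positivity)

theorem nat_le_unitV (hk : 1 ≤ slowPar N) : (N : ℝ) ≤ unitV N := by
  have h1 : (1 : ℝ) ≤ N := by exact_mod_cast (one_le_of_slowPar hk).1
  have h2 : (1 : ℝ) ≤ slowPar N := by exact_mod_cast hk
  exact (le_self_pow₀ h1 (by norm_num)).trans (le_mul_of_one_le_right (by positivity) h2)

theorem one_le_unitV (hk : 1 ≤ slowPar N) : 1 ≤ unitV N :=
  le_trans (by exact_mod_cast (one_le_of_slowPar hk).1) (nat_le_unitV hk)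

theorem one_le_unitU (hk : 1 ≤ slowPar N) : 1 ≤ unitU N :=
  (one_le_unitV hk).trans (unitV_le_unitU N)

theorem quot_le_unitV (hk : 1 ≤ slowPar N) : (N : ℝ) ^ 3 / (slowPar N : ℝ) ^ 3 ≤ unitV N := by
  have h2 : (1 : ℝ) ≤ slowPar N := by exact_mod_cast hk
  exact (div_le_self (by positivity) (one_le_pow₀ h2)).trans
    (le_mul_of_one_le_right (by positivity) h2)

theorem quot_mul_log_le_unitU (N : ℕ) :
    (N : ℝ) ^ 3 / (slowPar N : ℝ) ^ 3 * Nat.log 2 N ≤ unitU N := by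
  rw [unitU, div_mul_eq_mul_div, mul_div_assoc]
  exact mul_le_mul_of_nonneg_left (le_add_of_nonneg_left (Nat.cast_nonneg _)) (by positivity)

theorem unitU_le (hk : 1 ≤ slowPar N) : unitU N ≤ 2 * ((N : ℝ) ^ 3 * Nat.log 2 N) := by
  have h2 : (1 : ℝ) ≤ slowPar N := by exact_mod_cast hk
  have h3 : (slowPar N : ℝ) ≤ Nat.log 2 N := by exact_mod_cast slowPar_le_log N
  have h4 := div_le_self (Nat.cast_nonneg (α := ℝ) (Nat.log 2 N)) (one_le_pow₀ h2 (n := 3))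
  rw [unitU]
  nlinarith [pow_nonneg (Nat.cast_nonneg (α := ℝ) N) 3]

theorem unitV_mul_unitU_le (hk : 1 ≤ slowPar N) :
    unitV N * unitU N ≤ 2 * ((N : ℝ) ^ 6 * Nat.log 2 N) / (slowPar N : ℝ) ^ 2 := by
  have h2 : (1 : ℝ) ≤ slowPar N := by exact_mod_cast hk
  have h4 : (slowPar N : ℝ) ^ 4 ≤ Nat.log 2 N := by exact_mod_cast slowPar_pow_four_le N
  rw [unitV, unitU, le_div_iff₀ (by positivity)]
  have h5 : (slowPar N : ℝ) * ((slowPar N : ℝ) + (Nat.log 2 N : ℝ) / (slowPar N : ℝ) ^ 3) *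
      (slowPar N : ℝ) ^ 2 = (slowPar N : ℝ) ^ 4 + Nat.log 2 N := by
    field_simp
  calc _ = (N : ℝ) ^ 6 * ((slowPar N : ℝ) *
        ((slowPar N : ℝ) + (Nat.log 2 N : ℝ) / (slowPar N : ℝ) ^ 3) * (slowPar N : ℝ) ^ 2) := by
          ring
    _ ≤ _ := by rw [h5]; nlinarith [pow_nonneg (Nat.cast_nonneg (α := ℝ) N) 6]

theorem succ_cube_le (hk : 1 ≤ slowPar N) : ((N + 1 : ℕ) : ℝ) ^ 3 ≤ 8 * (N : ℝ) ^ 3 := by
  have h1 : (1 : ℝ) ≤ N := by exact_mod_cast (one_le_of_slowPar hk).1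
  push_cast
  calc ((N : ℝ) + 1) ^ 3 ≤ (2 * (N : ℝ)) ^ 3 := pow_le_pow_left₀ (by positivity) (by linarith) 3
    _ = _ := by ring

theorem unitV_growth (hk : 1 ≤ slowPar N) :
    unitV N ≤ 16 * unitV (N + 1) ∧ unitV (N + 1) ≤ 16 * unitV N := by
  have h1 : (slowPar (N + 1) : ℝ) ≤ 2 * slowPar N := by
    exact_mod_cast (slowPar_succ_le N).trans (by omega)
  have h2 : (slowPar N : ℝ) ≤ slowPar (N + 1) := by exact_mod_cast slowPar_le_succ N
  have h3 : (N : ℝ) ^ 3 ≤ ((N + 1 : ℕ) : ℝ) ^ 3 :=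
    pow_le_pow_left₀ (Nat.cast_nonneg _) (Nat.cast_le.2 N.le_succ) 3
  constructor
  · calc unitV N ≤ ((N + 1 : ℕ) : ℝ) ^ 3 * slowPar (N + 1) :=
          mul_le_mul h3 h2 (Nat.cast_nonneg _) (by positivity)
      _ ≤ _ := le_mul_of_one_le_left (by positivity) (by norm_num)
  · calc unitV (N + 1) ≤ (8 * (N : ℝ) ^ 3) * (2 * slowPar N) :=
          mul_le_mul (succ_cube_le hk) h1 (Nat.cast_nonneg _) (by positivity)
      _ = _ := by rw [unitV]; ring

theorem unitU_growth (hk : 1 ≤ slowPar N) :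
    unitU N ≤ 16 * unitU (N + 1) ∧ unitU (N + 1) ≤ 16 * unitU N := by
  have h1 : (slowPar (N + 1) : ℝ) ≤ 2 * slowPar N := by
    exact_mod_cast (slowPar_succ_le N).trans (by omega)
  have h2 : (slowPar N : ℝ) ≤ slowPar (N + 1) := by exact_mod_cast slowPar_le_succ N
  have h3 : (N : ℝ) ^ 3 ≤ ((N + 1 : ℕ) : ℝ) ^ 3 :=
    pow_le_pow_left₀ (Nat.cast_nonneg _) (Nat.cast_le.2 N.le_succ) 3
  have hl : (Nat.log 2 N : ℝ) ≤ Nat.log 2 (N + 1) := by
    exact_mod_cast Nat.log_mono_right N.le_succ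
  have hl' : (Nat.log 2 (N + 1) : ℝ) ≤ 2 * Nat.log 2 N := by
    have := (one_le_of_slowPar hk).2
    exact_mod_cast (log_succ_le N).trans (by omega)
  have hk0 : (1 : ℝ) ≤ slowPar N := by exact_mod_cast hk
  constructor
  · have h4 : (Nat.log 2 N : ℝ) / (slowPar N : ℝ) ^ 3 ≤
        8 * ((Nat.log 2 (N + 1) : ℝ) / (slowPar (N + 1) : ℝ) ^ 3) := by
      rw [← mul_div_assoc, div_le_div_iff₀ (by positivity)
        (pow_pos (lt_of_lt_of_le (by linarith) h2) 3)]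
      calc (Nat.log 2 N : ℝ) * (slowPar (N + 1) : ℝ) ^ 3
          ≤ Nat.log 2 (N + 1) * (2 * (slowPar N : ℝ)) ^ 3 :=
            mul_le_mul hl (pow_le_pow_left₀ (Nat.cast_nonneg _) h1 3) (by positivity)
              (by positivity)
        _ = _ := by ring
    calc unitU N ≤ ((N + 1 : ℕ) : ℝ) ^ 3 * (8 * (slowPar (N + 1) : ℝ) +
          8 * ((Nat.log 2 (N + 1) : ℝ) / (slowPar (N + 1) : ℝ) ^ 3)) :=
          mul_le_mul h3 (add_le_add (by linarith) h4) (by positivity) (by positivity)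
      _ = 8 * unitU (N + 1) := by rw [unitU]; ring
      _ ≤ _ := mul_le_mul_of_nonneg_right (by norm_num) (by unfold unitU; positivity)
  · have h4 : (Nat.log 2 (N + 1) : ℝ) / (slowPar (N + 1) : ℝ) ^ 3 ≤
        2 * ((Nat.log 2 N : ℝ) / (slowPar N : ℝ) ^ 3) := by
      rw [← mul_div_assoc]
      exact div_le_div₀ (by positivity) hl' (by positivity)
        (pow_le_pow_left₀ (Nat.cast_nonneg _) h2 3)
    calc unitU (N + 1) ≤ (8 * (N : ℝ) ^ 3) * (2 * (slowPar N : ℝ) +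
          2 * ((Nat.log 2 N : ℝ) / (slowPar N : ℝ) ^ 3)) :=
          mul_le_mul (succ_cube_le hk) (add_le_add h1 h4) (by positivity) (by positivity)
      _ = _ := by rw [unitU]; ring

/-- `N ≤ exp (log₂ N + 1)`. -/
theorem nat_le_exp_log (N : ℕ) : (N : ℝ) ≤ Real.exp ((Nat.log 2 N : ℝ) + 1) := by
  have h : (N : ℝ) ≤ (2 : ℝ) ^ (Nat.log 2 N + 1) := by
    exact_mod_cast (Nat.lt_pow_succ_log_self one_lt_two N).le
  refine h.trans ?_
  rw [show ((Nat.log 2 N : ℝ) + 1) = ((Nat.log 2 N + 1 : ℕ) : ℝ) * 1 by push_cast; ring,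
    Real.exp_nat_mul]
  exact pow_le_pow_left₀ zero_le_two (by linarith [Real.add_one_le_exp (1 : ℝ)]) _

/-- `2 ^ (-ℓ M) ≤ exp (-ℓ M / 2)`. -/
theorem inv_two_pow_le (m : ℕ) : ((2 : ℝ) ^ m)⁻¹ ≤ Real.exp (-((m : ℝ) / 2)) := by
  rw [Real.exp_neg]
  refine inv_anti₀ (Real.exp_pos _) ?_
  rw [← Real.exp_log (show (0 : ℝ) < (2 : ℝ) ^ m by positivity), Real.exp_le_exp, Real.log_pow]
  nlinarith [Real.log_two_gt_d9, Nat.cast_nonneg (α := ℝ) m]

end FA.GelfondCubic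

end
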