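import Fermat.Agent.GelfondCubic.Resultant
import Mathlib.RingTheory.Polynomial.GaussLemma
import Mathlib.RingTheory.Polynomial.UniqueFactorization
import Mathlib.RingTheory.Algebraic.Basic

/-!
# Gelfond's criterion

A small value of a polynomial forces a small value of the power of one irreducible factor, and
slowly growing bounds force this factor to be eventually constant.
-/

set_option autoImplicit false

noncomputable section

open Finset Polynomial Filter UniqueFactorizationMonoid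

namespace FA.GelfondCubic

theorem exists_le_of_split {ι : Type*} [DecidableEq ι] (s : Finset ι) (F : ι → ℝ)
    (hF : ∀ i ∈ s, 0 ≤ F i) {X : ℝ} (hX : 0 < X) (hX1 : X ≤ 1) (hs : ∏ i ∈ s, F i < X)
    (H : ∀ t ⊆ s, t.Nonempty → (s \ t).Nonempty → X ≤ max (∏ i ∈ t, F i) (∏ i ∈ s \ t, F i)) :
    ∃ i ∈ s, F i * X ^ 2 ≤ ∏ i ∈ s, F i := by
  obtain ⟨t, ht, hmin⟩ := exists_min_image (s.powerset.filter fun t => ∏ i ∈ t, F i < X)
    Finset.card ⟨s, mem_filter.2 ⟨mem_powerset_self s, hs⟩⟩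
  obtain ⟨hts, htX⟩ := mem_filter.1 ht
  rw [mem_powerset] at hts
  obtain ⟨i, hi⟩ : t.Nonempty := by
    by_contra h
    rw [not_nonempty_iff_eq_empty.1 h, prod_empty] at htX
    linarith
  have h1 : X ≤ ∏ j ∈ t.erase i, F j := by
    by_contra h
    exact (card_erase_lt_of_mem hi).not_ge
      (hmin _ (mem_filter.2 ⟨mem_powerset.2 ((erase_subset _ _).trans hts), not_le.1 h⟩))
  have h2 : X ≤ ∏ j ∈ s \ t, F j := by
    rcases (s \ t).eq_empty_or_nonempty with h | h
    · rw [h, prod_empty]; exact hX1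
    · exact (le_max_iff.1 (H t hts ⟨i, hi⟩ h)).resolve_left htX.not_ge
  refine ⟨i, hts hi, ?_⟩
  rw [← prod_sdiff hts, ← mul_prod_erase t F hi, mul_comm (∏ j ∈ s \ t, F j), mul_assoc, sq]
  exact mul_le_mul_of_nonneg_left (mul_le_mul h1 h2 hX.le (hX.le.trans h1)) (hF i (hts hi))

theorem normalize_eq_of_mem {P q : ℤ[X]} (h : q ∈ normalizedFactors P) : normalize q = q :=
  normalize_normalized_factor q h

theorem isCoprime_map {q q' : ℤ[X]} (hq : Irreducible q) (hq' : Irreducible q')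
    (hd : 1 ≤ q.natDegree) (hd' : 1 ≤ q'.natDegree) (hn : normalize q = q)
    (hn' : normalize q' = q') (hne : q ≠ q') :
    IsCoprime (q.map (Int.castRingHom ℚ)) (q'.map (Int.castRingHom ℚ)) := by
  have hp := hq.isPrimitive (by omega)
  have hp' := hq'.isPrimitive (by omega)
  refine ((IsPrimitive.Int.irreducible_iff_irreducible_map_cast hp).1 hq).coprime_iff_not_dvd.2
    fun hdvd => hne ?_
  have h := hq.associated_of_dvd hq'
    ((IsPrimitive.Int.dvd_iff_map_cast_dvd_map_cast _ _ hp).2 hdvd)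
  rw [← hn, ← hn']
  exact normalize_eq_normalize h.dvd h.symm.dvd

/-- A small value gives a small power of an irreducible. -/
theorem exists_small_factor (θ : ℂ) {P : ℤ[X]} (hP : P ≠ 0) {D T C : ℝ} (hD : 1 ≤ D) (hDT : D ≤ T)
    (hdeg : (P.natDegree : ℝ) ≤ D) (hsize : size P ≤ T)
    (hC : 4 * (2 + Real.log (max 1 ‖θ‖)) < C) (hsmall : ‖aeval θ P‖ ≤ Real.exp (-(C * (D * T)))) :
    ∃ (q : ℤ[X]) (k : ℕ), Irreducible q ∧ normalize q = q ∧ 1 ≤ q.natDegree ∧ 1 ≤ k ∧
      ((q ^ k).natDegree : ℝ) ≤ D ∧ size (q ^ k) ≤ T ∧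
      ‖aeval θ q‖ ^ k ≤ Real.exp (-((C - 4 * (2 + Real.log (max 1 ‖θ‖))) * (D * T))) := by
  classical
  set κ := 2 + Real.log (max 1 ‖θ‖) with hκ
  have hκ0 : 2 ≤ κ := le_add_of_nonneg_right (Real.log_nonneg (le_max_left _ _))
  set M := normalizedFactors P with hM
  set s := M.toFinset.filter fun q => 1 ≤ q.natDegree with hs
  set c := M.toFinset.filter fun q => ¬ 1 ≤ q.natDegree with hc
  set F : ℤ[X] → ℤ[X] := fun q => q ^ M.count q with hF
  have hF0 : ∀ q ∈ M.toFinset, F q ≠ 0 := fun q hq =>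
    pow_ne_zero _ (irreducible_of_normalized_factor q (Multiset.mem_toFinset.1 hq)).ne_zero
  obtain ⟨u, hu⟩ : ∃ u : ℤ[X]ˣ, (u : ℤ[X]) * (∏ q ∈ c, F q) * ∏ q ∈ s, F q = P := by
    obtain ⟨u, hu⟩ := prod_normalizedFactors hP
    refine ⟨u, ?_⟩
    rw [← hu, ← hM, Finset.prod_multiset_count, ← prod_filter_mul_prod_filter_not M.toFinset
      (fun q => 1 ≤ q.natDegree)]
    ring
  set R : ℤ[X] := (u : ℤ[X]) * ∏ q ∈ c, F q with hR
  have hR0 : R ≠ 0 := fun e => hP (by rw [← hu, e, zero_mul])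
  have hRdeg : R.natDegree = 0 := by
    rw [hR, natDegree_mul u.ne_zero (prod_ne_zero_iff.2 fun q hq =>
      hF0 q (mem_filter.1 hq).1), natDegree_eq_zero_of_isUnit u.isUnit, zero_add,
      natDegree_prod _ _ fun q hq => hF0 q (mem_filter.1 hq).1]
    refine sum_eq_zero fun q hq => ?_
    rw [natDegree_pow, Nat.lt_one_iff.1 (not_le.1 (mem_filter.1 hq).2), mul_zero]
  have hsub : ∀ t, t ⊆ s → ((∏ q ∈ t, F q).natDegree : ℝ) ≤ D ∧ size (∏ q ∈ t, F q) ≤ T ∧
      ∏ q ∈ t, F q ≠ 0 := fun t ht => by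
    have h0 : ∀ r : Finset ℤ[X], r ⊆ s → ∏ q ∈ r, F q ≠ 0 := fun r hr =>
      prod_ne_zero_iff.2 fun q hq => hF0 q (mem_filter.1 (hr hq)).1
    have e : P = R * (∏ q ∈ s \ t, F q) * ∏ q ∈ t, F q := by
      rw [mul_assoc, prod_sdiff ht, hu]
    have hR' : R * ∏ q ∈ s \ t, F q ≠ 0 := mul_ne_zero hR0 (h0 _ sdiff_subset)
    refine ⟨le_trans ?_ hdeg, le_trans ?_ hsize, h0 t ht⟩
    · rw [e, natDegree_mul hR' (h0 t ht)]; push_cast
      exact le_add_of_nonneg_left (Nat.cast_nonneg _)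
    · rw [e, size_mul hR' (h0 t ht)]
      exact le_add_of_nonneg_left (size_nonneg hR')
  set X := Real.exp (-(κ * (2 * (D * T)))) with hX
  have hDT0 : 0 < D * T := by nlinarith
  have hprod : ∏ q ∈ s, ‖aeval θ (F q)‖ ≤ Real.exp (-(C * (D * T))) := by
    refine le_trans ?_ hsmall
    rw [← norm_prod, ← map_prod, ← hu, map_mul _ R, norm_mul]
    refine le_mul_of_one_le_left (norm_nonneg _) ?_
    have hc0 : R.coeff 0 ≠ 0 := fun e => hR0 (by
      rw [eq_C_of_natDegree_eq_zero hRdeg, e, map_zero])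
    rw [eq_C_of_natDegree_eq_zero hRdeg, aeval_C, eq_intCast, Complex.norm_intCast]
    exact_mod_cast Int.one_le_abs hc0
  obtain ⟨q, hq, hqX⟩ := exists_le_of_split s (fun q => ‖aeval θ (F q)‖) (fun _ _ => norm_nonneg _)
    (Real.exp_pos (-(κ * (2 * (D * T))))) (Real.exp_le_one_iff.2 (by nlinarith))
    (hprod.trans_lt (Real.exp_lt_exp.2 (by nlinarith))) fun t ht htne htne' => by
      simp only [← norm_prod, ← map_prod]
      have hdeg1 : ∀ r, r ⊆ s → r.Nonempty → 1 ≤ (∏ q ∈ r, F q).natDegree := fun r hr hne => by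
        obtain ⟨q, hq⟩ := hne
        rw [natDegree_prod _ _ fun x hx => hF0 x (mem_filter.1 (hr hx)).1]
        refine le_trans ?_ (single_le_sum (f := fun x => (F x).natDegree)
          (fun _ _ => Nat.zero_le _) hq)
        rw [natDegree_pow]
        exact Nat.mul_pos (Multiset.count_pos.2 (Multiset.mem_toFinset.1 (mem_filter.1 (hr hq)).1))
          (mem_filter.1 (hr hq)).2
      refine le_trans (Real.exp_le_exp.2 (neg_le_neg (mul_le_mul_of_nonneg_left ?_ (by linarith))))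
        (exp_le_max θ (hdeg1 t ht htne) (hdeg1 _ sdiff_subset htne') ?_)
      · have h1 := hsub t ht
        have h2 := hsub (s \ t) sdiff_subset
        nlinarith [mul_le_mul h1.2.1 h2.1 (Nat.cast_nonneg _) (by linarith),
          mul_le_mul h2.2.1 h1.1 (Nat.cast_nonneg _) (by linarith)]
      · simp only [Polynomial.map_prod]
        refine IsCoprime.prod_left fun x hx => IsCoprime.prod_right fun y hy => ?_
        obtain ⟨hxs, hxd⟩ := mem_filter.1 (ht hx)
        obtain ⟨hys, hyd⟩ := mem_filter.1 (mem_sdiff.1 hy).1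
        rw [Multiset.mem_toFinset] at hxs hys
        simp only [hF, Polynomial.map_pow]
        exact (isCoprime_map (irreducible_of_normalized_factor x hxs)
          (irreducible_of_normalized_factor y hys) hxd hyd (normalize_eq_of_mem hxs)
          (normalize_eq_of_mem hys) fun e => (mem_sdiff.1 hy).2 (e ▸ hx)).pow
  obtain ⟨hqM, hqd⟩ := mem_filter.1 hq
  have hqt := hsub {q} (singleton_subset_iff.2 hq)
  rw [prod_singleton] at hqt
  refine ⟨q, M.count q, irreducible_of_normalized_factor q (Multiset.mem_toFinset.1 hqM),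
    normalize_eq_of_mem (Multiset.mem_toFinset.1 hqM), hqd,
    Multiset.count_pos.2 (Multiset.mem_toFinset.1 hqM), hqt.1, hqt.2.1, ?_⟩
  rw [← norm_pow, ← map_pow]
  refine le_of_mul_le_mul_right ((hqX.trans hprod).trans_eq ?_) (pow_pos (Real.exp_pos _) 2)
  rw [← Real.exp_nat_mul, ← Real.exp_add]
  congr 1
  push_cast
  ring

/-- **Gelfond's criterion.** -/
theorem gelfond_criterion {θ : ℂ} (hθ : Transcendental ℚ θ) {a : ℝ} (ha : 0 ≤ a) :
    ∃ C : ℝ, ∀ D T : ℕ → ℝ,
      (∀ᶠ N in atTop, 1 ≤ D N ∧ D N ≤ T N ∧ D N ≤ a * D (N + 1) ∧ T N ≤ a * T (N + 1) ∧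
        D (N + 1) ≤ a * D N ∧ T (N + 1) ≤ a * T N) →
      Tendsto T atTop atTop →
      ∀ P : ℕ → ℤ[X], (∀ᶠ N in atTop, P N ≠ 0 ∧ ((P N).natDegree : ℝ) ≤ D N ∧
        (P N).natDegree + Real.log (len (P N)) ≤ T N ∧
        ‖aeval θ (P N)‖ ≤ Real.exp (-(C * (D N * T N)))) → False := by
  set κ := 2 + Real.log (max 1 ‖θ‖) with hκ
  have hκ0 : 2 ≤ κ := le_add_of_nonneg_right (Real.log_nonneg (le_max_left _ _))
  refine ⟨4 * κ + (1 + a ^ 2) * (2 * a * κ + 1), fun D T hDT hT P hP => ?_⟩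
  set C' := (1 + a ^ 2) * (2 * a * κ + 1) with hC'
  have hC'0 : 1 ≤ C' := one_le_mul_of_one_le_of_one_le (le_add_of_nonneg_right (sq_nonneg a))
    (le_add_of_nonneg_left (by positivity))
  obtain ⟨N₀, hN₀⟩ := eventually_atTop.1 (hDT.and hP)
  have hfac : ∀ N, N₀ ≤ N → ∃ (q : ℤ[X]) (k : ℕ), Irreducible q ∧ normalize q = q ∧
      1 ≤ q.natDegree ∧ 1 ≤ k ∧ ((q ^ k).natDegree : ℝ) ≤ D N ∧ size (q ^ k) ≤ T N ∧
      ‖aeval θ q‖ ^ k ≤ Real.exp (-(C' * (D N * T N))) := fun N hN => by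
    obtain ⟨⟨h1, h2, -⟩, hP0, hd, hs, hsm⟩ := hN₀ N hN
    have h := exists_small_factor θ hP0 h1 h2 hd ((size_le hP0).trans hs)
      (C := 4 * κ + C') (by rw [← hκ]; linarith) hsm
    rw [← hκ, show 4 * κ + C' - 4 * κ = C' by ring] at h
    exact h
  choose q k hirr hnorm hdeg hk hD hS hsmall using hfac
  have hstep : ∀ N (hN : N₀ ≤ N), q (N + 1) (hN.trans N.le_succ) = q N hN := fun N hN => by
    by_contra hne
    set hN' := hN.trans N.le_succ
    have hdk : ∀ M (hM : N₀ ≤ M), 1 ≤ ((q M hM) ^ k M hM).natDegree := fun M hM => by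
      rw [natDegree_pow]
      exact Nat.mul_pos (hk M hM) (hdeg M hM)
    have h := exp_le_max θ (hdk (N + 1) hN') (hdk N hN) (by
      rw [Polynomial.map_pow, Polynomial.map_pow]
      exact (isCoprime_map (hirr _ hN') (hirr _ hN) (hdeg _ hN') (hdeg _ hN) (hnorm _ hN')
        (hnorm _ hN) hne).pow)
    rw [← hκ] at h
    obtain ⟨⟨h1, h2, h3, h4, h5, h6⟩, -⟩ := hN₀ N hN
    have hmono : D N * T N ≤ a ^ 2 * (D (N + 1) * T (N + 1)) :=
      (mul_le_mul h3 h4 (by linarith) (le_trans (by linarith) h3)).trans_eq (by ring)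
    have hκa : 1 ≤ 2 * a * κ + 1 := le_add_of_nonneg_left (by positivity)
    have hb : size ((q (N + 1) hN') ^ k (N + 1) hN') * ((q N hN) ^ k N hN).natDegree +
        size ((q N hN) ^ k N hN) * ((q (N + 1) hN') ^ k (N + 1) hN').natDegree ≤
          2 * a * (D N * T N) := by
      have e1 := mul_le_mul ((hS _ hN').trans h6) (hD N hN) (Nat.cast_nonneg _)
        (mul_nonneg ha (by linarith))
      have e2 := mul_le_mul (hS N hN) ((hD _ hN').trans h5) (Nat.cast_nonneg _) (by linarith)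
      linarith
    have hmax : max ‖aeval θ ((q (N + 1) hN') ^ k (N + 1) hN')‖
        ‖aeval θ ((q N hN) ^ k N hN)‖ ≤ Real.exp (-((2 * a * κ + 1) * (D N * T N))) := by
      have hnn : 0 ≤ D N * T N := mul_nonneg (by linarith) (by linarith)
      obtain ⟨⟨g1, g2, -⟩, -⟩ := hN₀ (N + 1) hN'
      have hnn' : 0 ≤ D (N + 1) * T (N + 1) := mul_nonneg (by linarith) (by linarith)
      rw [map_pow, map_pow, norm_pow, norm_pow]
      refine max_le ((hsmall _ hN').trans (Real.exp_le_exp.2 (neg_le_neg ?_)))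
        ((hsmall N hN).trans (Real.exp_le_exp.2 (neg_le_neg ?_)))
      · rw [hC', mul_comm (1 + a ^ 2), mul_assoc (2 * a * κ + 1)]
        exact mul_le_mul_of_nonneg_left (hmono.trans (by linarith)) (by linarith)
      · exact mul_le_mul_of_nonneg_right (le_mul_of_one_le_left (by linarith)
          (le_add_of_nonneg_right (sq_nonneg a))) hnn
    have h7 := neg_le_neg_iff.1 (Real.exp_le_exp.1 (h.trans hmax))
    have h8 := mul_le_mul_of_nonneg_left hb (show (0 : ℝ) ≤ κ by linarith)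
    have h9 : 1 ≤ D N * T N := one_le_mul_of_one_le_of_one_le h1 (h1.trans h2)
    nlinarith
  have hconst : ∀ N (hN : N₀ ≤ N), q N hN = q N₀ le_rfl := fun N hN => by
    induction N, hN using Nat.le_induction with
    | base => rfl
    | succ N hN ih => rw [hstep N hN, ih]
  set c := ‖aeval θ (q N₀ le_rfl)‖ with hc
  have hc0 : 0 < c := by
    refine norm_pos_iff.2 fun h0 => hθ ⟨(q N₀ le_rfl).map (Int.castRingHom ℚ),
      (Polynomial.map_ne_zero_iff (RingHom.injective_int _)).2 (hirr N₀ le_rfl).ne_zero, ?_⟩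
    rw [← h0, ← algebraMap_int_eq, aeval_map_algebraMap]
  obtain ⟨N, hN, hTN⟩ : ∃ N, N₀ ≤ N ∧ -Real.log c < T N := by
    obtain ⟨N, hN⟩ := eventually_atTop.1 (hT.eventually_gt_atTop (-Real.log c))
    exact ⟨max N N₀, le_max_right _ _, hN _ (le_max_left _ _)⟩
  obtain ⟨⟨h1, h2, -⟩, -⟩ := hN₀ N hN
  have h := hsmall N hN
  rw [hconst N hN, ← hc, ← Real.log_le_iff_le_exp (pow_pos hc0 _), Real.log_pow] at h
  have hkD : (k N hN : ℝ) ≤ D N := by
    refine le_trans ?_ (hD N hN)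
    rw [natDegree_pow, Nat.cast_mul]
    exact le_mul_of_one_le_right (Nat.cast_nonneg _) (Nat.one_le_cast.2 (hdeg N hN))
  have hk1 : (1 : ℝ) ≤ k N hN := Nat.one_le_cast.2 (hk N hN)
  have hDT1 : 1 ≤ D N * T N := one_le_mul_of_one_le_of_one_le h1 (h1.trans h2)
  have hCDT := mul_le_mul_of_nonneg_right hC'0 (show (0 : ℝ) ≤ D N * T N by linarith)
  rcases le_or_gt 0 (Real.log c) with h0 | h0
  · linarith [mul_nonneg (show (0 : ℝ) ≤ k N hN by linarith) h0]
  · nlinarith [mul_le_mul_of_nonpos_right hkD h0.le, mul_pos (show (0 : ℝ) < D N by linarith)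
      (show (0 : ℝ) < T N + Real.log c by linarith)]

end FA.GelfondCubic

end
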