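import Fermat.Agent.GelfondCubic.Construction

/-!
# The sizes

Every factor is `exp (O (unitU N))`, the main term `exp (-N ⁶ log₂ N / (16 ν))`.
-/

set_option autoImplicit false

noncomputable section

open Finset Polynomial Filter

namespace FA.GelfondCubic

variable {θ β lg : ℂ} (D : Data θ β lg) (c : Fin 3 → ℤ)

/-- `exp (a U) exp (b U) ≤ exp ((a + b) U)`. -/
theorem mul_le_exp {x y a b U : ℝ} (hy : 0 ≤ y) (hx' : x ≤ Real.exp (a * U))
    (hy' : y ≤ Real.exp (b * U)) : x * y ≤ Real.exp ((a + b) * U) := by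
  rw [add_mul, Real.exp_add]
  exact mul_le_mul hx' hy' hy (Real.exp_pos _).le

theorem pow_le_exp {x e U : ℝ} (hx : 0 ≤ x) {m : ℕ} (hm : (m : ℝ) ≤ e * U) :
    x ^ m ≤ Real.exp (x * e * U) := by
  refine (pow_le_pow_left₀ hx (le_trans (by linarith) (Real.add_one_le_exp x)) m).trans ?_
  rw [← Real.exp_nat_mul, Real.exp_le_exp, mul_assoc, mul_comm]
  exact mul_le_mul_of_nonneg_left hm hx

theorem nat_succ_le_exp {m : ℕ} {e U : ℝ} (hm : (m : ℝ) ≤ e * U) :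
    ((m + 1 : ℕ) : ℝ) ≤ Real.exp (e * U) := by
  push_cast
  exact (Real.add_one_le_exp _).trans (Real.exp_le_exp.2 hm)

theorem cast_le_exp {a U : ℝ} (hU : 1 ≤ U) (ha : 0 ≤ a) : a ≤ Real.exp (a * U) :=
  le_trans (by nlinarith) (le_trans (le_add_of_nonneg_right zero_le_one) (Real.add_one_le_exp _))

variable {N : ℕ}

theorem ordHigh_le (hk : 1 ≤ slowPar N) :
    (ordHigh N : ℝ) ≤ 4 * unitV N ∧
      (ordHigh N : ℝ) * ((Nat.log 2 N : ℝ) + 1) ≤ 8 * unitU N := by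
  have h : (ordHigh N : ℝ) ≤ 4 * ((N : ℝ) ^ 3 / (slowPar N : ℝ) ^ 3) := by
    refine Nat.cast_div_le.trans_eq ?_
    push_cast
    ring
  have h1 := quot_le_unitV hk
  refine ⟨h.trans (by linarith), ?_⟩
  have h2 := quot_mul_log_le_unitU N
  have hl : (1 : ℝ) ≤ Nat.log 2 N := by exact_mod_cast (one_le_of_slowPar hk).2
  have h3 : 0 ≤ (N : ℝ) ^ 3 / (slowPar N : ℝ) ^ 3 := by positivity
  calc (ordHigh N : ℝ) * ((Nat.log 2 N : ℝ) + 1)
      ≤ 4 * ((N : ℝ) ^ 3 / (slowPar N : ℝ) ^ 3) * (2 * Nat.log 2 N) :=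
        mul_le_mul h (by linarith) (by positivity) (by positivity)
    _ ≤ _ := by nlinarith

theorem padExp_eq : (padExp c N : ℝ) = coordBound c * unitV N := by
  rw [padExp, sideA, sideS, unitV]
  push_cast
  ring

theorem ordLow_facts (hk : 1 ≤ slowPar N) (hN : 8 * D.ν ≤ N) :
    1 ≤ ordLow D N ∧ ordLow D N ≤ ordHigh N ∧
      (N : ℝ) ^ 6 / (8 * D.ν) ≤ ((ordLow D N * sideS N ^ 3 : ℕ) : ℝ) := by
  obtain ⟨hN1, -⟩ := one_le_of_slowPar hk
  have hν := D.hν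
  set m := 4 * D.ν * slowPar N ^ 3 with hm
  have hm0 : 0 < m := by positivity
  have hkN : slowPar N ^ 3 ≤ N := slowPar_pow_le N (by norm_num) (by norm_num)
  have h2m : 2 * m ≤ N ^ 3 := by
    calc 2 * m = 8 * D.ν * slowPar N ^ 3 := by rw [hm]; ring
      _ ≤ N * N := Nat.mul_le_mul hN hkN
      _ ≤ N ^ 3 := by
        calc N * N = N ^ 2 := (sq N).symm
          _ ≤ N ^ 3 := Nat.pow_le_pow_right hN1 (by norm_num)
  have hlt : N ^ 3 < ordLow D N * m + m := Nat.lt_div_mul_add hm0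
  have hhalf : N ^ 3 ≤ 2 * (ordLow D N * m) := by omega
  refine ⟨Nat.div_pos (by omega) hm0, ?_, ?_⟩
  · exact (Nat.div_le_div_left (Nat.le_mul_of_pos_left _ (by omega)) (by positivity)).trans
      (Nat.div_le_div_right (Nat.le_mul_of_pos_left _ (by norm_num)))
  · rw [div_le_iff₀ (by positivity)]
    have h : N ^ 6 ≤ ordLow D N * sideS N ^ 3 * (8 * D.ν) := by
      calc N ^ 6 = N ^ 3 * N ^ 3 := by ring
        _ ≤ 2 * (ordLow D N * m) * N ^ 3 := Nat.mul_le_mul_right _ hhalf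
        _ = _ := by rw [sideS, hm]; ring
    exact_mod_cast h

theorem base_pow_le (hk : 1 ≤ slowPar N) :
    ((sideA N : ℕ) : ℝ) ^ ordHigh N ≤ Real.exp (16 * unitU N) := by
  rw [sideA, Nat.cast_pow, ← pow_mul]
  refine (pow_le_pow_left₀ (Nat.cast_nonneg _) (nat_le_exp_log N) _).trans ?_
  rw [← Real.exp_nat_mul, Real.exp_le_exp]
  push_cast
  linarith [(ordHigh_le hk).2]

theorem factorial_le_exp (hk : 1 ≤ slowPar N) {t : ℕ} (ht : t ≤ ordHigh N) :
    (t.factorial : ℝ) ≤ Real.exp (40 * unitU N) := by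
  refine le_trans (Nat.cast_le.2 (Nat.factorial_le_pow t)) ?_
  push_cast
  have htT : (t : ℝ) ≤ ordHigh N := Nat.cast_le.2 ht
  have hl : (0 : ℝ) ≤ (Nat.log 2 N : ℝ) + 1 := by positivity
  have h4 : (4 : ℝ) ≤ Real.exp (2 * ((Nat.log 2 N : ℝ) + 1)) := by
    have h := Real.quadratic_le_exp_of_nonneg (show (0 : ℝ) ≤ 2 by norm_num)
    refine le_trans (by linarith) (Real.exp_le_exp.2 (?_ : (2 : ℝ) ≤ _))
    linarith [(Nat.cast_nonneg _ : (0 : ℝ) ≤ (Nat.log 2 N : ℝ))]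
  have h1 : (t : ℝ) ≤ Real.exp (5 * ((Nat.log 2 N : ℝ) + 1)) := by
    refine htT.trans ((show (ordHigh N : ℝ) ≤ 4 * (N : ℝ) ^ 3 from ?_).trans ?_)
    · exact_mod_cast Nat.div_le_self (4 * N ^ 3) _
    · calc 4 * (N : ℝ) ^ 3 ≤ Real.exp (2 * ((Nat.log 2 N : ℝ) + 1)) *
            Real.exp ((Nat.log 2 N : ℝ) + 1) ^ 3 :=
            mul_le_mul h4 (pow_le_pow_left₀ (Nat.cast_nonneg _) (nat_le_exp_log N) 3)
              (by positivity) (Real.exp_pos _).le
        _ = _ := by rw [← Real.exp_nat_mul, ← Real.exp_add]; ring_nf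
  refine (pow_le_pow_left₀ (Nat.cast_nonneg _) h1 t).trans ?_
  rw [← Real.exp_nat_mul, Real.exp_le_exp]
  linarith [mul_le_mul_of_nonneg_right htT hl, (ordHigh_le hk).2]

theorem decay_le {ν : ℝ} (hν : 0 < ν) {M : ℕ} (hM : (N : ℝ) ^ 6 / (8 * ν) ≤ (M : ℝ)) :
    ((2 : ℝ) ^ Nat.log 2 N)⁻¹ ^ M ≤
      Real.exp (-((N : ℝ) ^ 6 * Nat.log 2 N / (16 * ν))) := by
  rw [inv_pow, ← pow_mul]
  refine (inv_two_pow_le _).trans (Real.exp_le_exp.2 (neg_le_neg ?_))
  rw [Nat.cast_mul]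
  calc (N : ℝ) ^ 6 * Nat.log 2 N / (16 * ν) =
        (Nat.log 2 N : ℝ) * ((N : ℝ) ^ 6 / (8 * ν)) / 2 := by field_simp; ring
    _ ≤ _ := by gcongr

theorem combine_le {Q G S Y a b c d e f U : ℝ} {m : ℕ} (hG0 : 0 ≤ G) (hS0 : 0 ≤ S)
    (hY0 : 0 ≤ Y) (hQ : Q ≤ Real.exp (a * U)) 
    (hG : G ≤ Real.exp (b * U) * (Real.exp e * Real.exp f))
    (hS : S ≤ Real.exp (c * U)) (hY : Y ≤ Real.exp (d * U)) :
    Q * G * (S * Y ^ m) ≤ Real.exp ((a + b + (c + m * d)) * U + e + f) := by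
  calc Q * G * (S * Y ^ m) ≤ Real.exp (a * U) * (Real.exp (b * U) * (Real.exp e * Real.exp f)) *
        (Real.exp (c * U) * Real.exp (d * U) ^ m) :=
        mul_le_mul (mul_le_mul hQ hG hG0 (Real.exp_pos _).le)
          (mul_le_mul hS (pow_le_pow_left₀ hY0 hY m) (by positivity) (Real.exp_pos _).le)
          (by positivity) (by positivity)
    _ = _ := by
        rw [← Real.exp_nat_mul]
        simp only [← Real.exp_add]
        congr 1
        ring

/-- **The small polynomial.** -/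
theorem exists_small_polynomial (hθ : Transcendental ℚ θ) (hlg : lg ≠ 0)
    (hrel : β ^ 3 = ∑ i, (c i : ℂ) * β ^ (i : ℕ))
    (hind : ∀ x : Fin 3 → ℤ, ∑ i, (x i : ℂ) * β ^ (i : ℕ) = 0 → x = 0) :
    ∃ cD cT cU c5 : ℝ, 1 ≤ cD ∧ cD ≤ cT ∧ 0 ≤ cU ∧ 0 ≤ c5 ∧ ∀ᶠ N in atTop, ∃ P : ℤ[X], P ≠ 0 ∧
      (P.natDegree : ℝ) ≤ cD * unitV N ∧ P.natDegree + Real.log (len P) ≤ cT * unitU N ∧
      ‖aeval θ P‖ ≤ Real.exp (cU * unitU N + c5 * (N : ℝ) ^ 5 -
        (N : ℝ) ^ 6 * Nat.log 2 N / (16 * D.ν)) := by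
  obtain ⟨d₀, K, hK, hval⟩ := exists_small_valueMat D c
  set cb : ℝ := (coordBound c : ℝ) with hcb
  have hcb0 : 0 ≤ cb := Nat.cast_nonneg _
  set ν : ℝ := (D.ν : ℝ) with hν
  have hν1 : 1 ≤ ν := by rw [hν]; exact_mod_cast D.hν
  set Θ := max 1 ‖θ‖ with hΘ
  have hΘ1 : 1 ≤ Θ := le_max_left _ _
  set cδ : ℝ := d₀ * (8 + cb) with hcδ
  have hcδ0 : 0 ≤ cδ := by positivity
  set cB : ℝ := K * (5 + cb) + 16 with hcB
  set cp : ℝ := cδ + (6 + cδ + cB) with hcp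
  set cG : ℝ := 6 + (cp + cB) with hcG
  set cY : ℝ := ν + 1 + (cG + Θ * (2 * cδ)) with hcY
  set cM : ℝ := 6 + (cp + Θ * cδ) with hcM
  set cg : ℝ := ‖lg‖⁻¹ * 4 + (40 + cM) with hcg
  have hcB0 : 0 ≤ cB := by positivity
  refine ⟨2 * ν * cδ + 1, 2 * ν * cδ + 1 + ν * (ν + cG),
    ‖aeval θ D.q‖ * (8 + cb) + cg + (spread D + ν * cY), betaSize β * ‖lg‖,
    le_add_of_nonneg_left (by positivity), le_add_of_nonneg_right (by positivity),
    ?_, mul_nonneg (zero_le_one.trans (one_le_betaSize β)) (norm_nonneg _), ?_⟩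
  · have hs : 0 ≤ spread D := sum_nonneg fun _ _ => sum_nonneg fun _ _ => by positivity
    positivity
  have hev1 := tendsto_slowPar.eventually_ge_atTop (max 1 ⌈3 * (betaSize β + 1)⌉₊)
  have hev2 := eventually_ge_atTop (max (8 * D.ν) ⌈18 * betaSize β ^ 2 * ‖lg‖⌉₊)
  filter_upwards [hev1, hev2] with N hk' hN'
  have hk : 1 ≤ slowPar N := (le_max_left _ _).trans hk'
  have hbk : 3 * (betaSize β + 1) ≤ slowPar N :=
    (Nat.le_ceil _).trans (Nat.cast_le.2 ((le_max_right _ _).trans hk'))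
  have hN8 : 8 * D.ν ≤ N := (le_max_left _ _).trans hN'
  have hbN : 18 * betaSize β ^ 2 * ‖lg‖ ≤ N :=
    (Nat.le_ceil _).trans (Nat.cast_le.2 ((le_max_right _ _).trans hN'))
  have hk2 : (slowPar N : ℝ) * slowPar N ≤ N := by
    rw [← sq]; exact_mod_cast slowPar_pow_le N (i := 2) (by norm_num) (by norm_num)
  have hr : 3 * (betaSize β + 1) * slowPar N ≤ N :=
    (mul_le_mul_of_nonneg_right hbk (Nat.cast_nonneg _)).trans hk2
  have hN1 : (1 : ℝ) ≤ N := by exact_mod_cast (one_le_of_slowPar hk).1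
  have hbig : 18 * betaSize β ^ 2 * ‖lg‖ * slowPar N ≤ (N : ℝ) ^ 3 := by
    have h1 : (slowPar N : ℝ) ≤ N := by
      exact_mod_cast (slowPar_le_log N).trans (Nat.log_le_self 2 N)
    calc _ ≤ (N : ℝ) * N := mul_le_mul hbN h1 (Nat.cast_nonneg _) (by positivity)
      _ = (N : ℝ) ^ 2 := (sq _).symm
      _ ≤ _ := pow_le_pow_right₀ hN1 (by norm_num)
  set U := unitU N with hU
  have hU1 : 1 ≤ U := one_le_unitU hk
  have hVU : unitV N ≤ U := unitV_le_unitU N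
  obtain ⟨hT4, hTlog⟩ := ordHigh_le hk
  obtain ⟨hlow, hle, hM⟩ := ordLow_facts D hk hN8
  set T := ordHigh N with hT
  set E := padExp c N with hE
  have hEV : (E : ℝ) = cb * unitV N := padExp_eq c
  set δ := d₀ * (2 * T + E) with hδ
  have hδV : (δ : ℝ) ≤ cδ * unitV N := by
    rw [hδ, hcδ]
    push_cast
    rw [hEV, mul_assoc]
    exact mul_le_mul_of_nonneg_left (by linarith) (Nat.cast_nonneg _)
  have hδU : (δ : ℝ) ≤ cδ * U := hδV.trans (mul_le_mul_of_nonneg_left hVU hcδ0)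
  have h2δ : ((δ + δ : ℕ) : ℝ) ≤ 2 * cδ * U := by push_cast; linarith
  have hn6 : (N : ℝ) ^ 6 ≤ Real.exp (6 * U) := by
    have hNU : (N : ℝ) ≤ U := (nat_le_unitV hk).trans hVU
    calc (N : ℝ) ^ 6 ≤ Real.exp U ^ 6 :=
          pow_le_pow_left₀ (Nat.cast_nonneg _) (hNU.trans (by linarith [Real.add_one_le_exp U])) 6
      _ = _ := by rw [← Real.exp_nat_mul]; norm_num
  -- the matrices
  set B := K ^ (T + E + 1) * (sideA N : ℝ) ^ T with hB
  have hA1 : 1 ≤ sideA N := Nat.one_le_pow 2 N (one_le_of_slowPar hk).1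
  have hA1' : (1 : ℝ) ≤ sideA N := by exact_mod_cast hA1
  have hB1 : 1 ≤ B := one_le_mul_of_one_le_of_one_le (one_le_pow₀ hK) (one_le_pow₀ hA1')
  have hBU : B ≤ Real.exp (cB * U) := by
    refine mul_le_exp (by positivity) (pow_le_exp (by linarith) (e := 5 + cb) ?_) (base_pow_le hk)
    push_cast
    rw [hEV, add_mul]
    linarith [mul_le_mul_of_nonneg_left hVU hcb0]
  have hsmall : ∀ t ≤ T, ∀ (a : Fin 3 → Fin (sideA N)) (l : Fin 3 → Fin (sideS N)),
      Small (valueMat D c E t a l) δ B := fun t ht a l =>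
    (hval E t a l hA1 (sum_natAbs_prodCoord_le c a l)).mono
      (Nat.mul_le_mul_left _ (by omega)) (mul_le_mul (pow_le_pow_right₀ hK (by omega))
        (pow_le_pow_right₀ hA1' ht) (by positivity) (by positivity))
  obtain ⟨p, hp0, hpd, hpl, hzero⟩ := exists_aux D c N hθ hrel hk hlow hle hB1 hsmall
  set Lp := ((δ + 1 : ℕ) : ℝ) * ((N ^ 6 * (δ + 1) : ℕ) * B) with hLp
  have hLp0 : 0 ≤ Lp := by positivity
  have hLpU : Lp ≤ Real.exp (cp * U) := by
    refine mul_le_exp (by positivity) (nat_succ_le_exp hδU) (mul_le_exp (by linarith) ?_ hBU)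
    rw [Nat.cast_mul, Nat.cast_pow]
    exact mul_le_exp (Nat.cast_nonneg _) hn6 (nat_succ_le_exp hδU)
  -- the nonzero value
  obtain ⟨t, ht, l, hne⟩ := exists_value_ne_zero N hθ hlg hind hk hbig hp0
  have htT : (t : ℝ) ≤ T := by exact_mod_cast ht.le
  have htU : (t : ℝ) ≤ 4 * U := htT.trans (hT4.trans (by linarith))
  set BG := (N : ℝ) ^ 6 * (Lp * B) with hBG
  have hG : Small (sumMat D c N p t l) (δ + δ) BG := by
    refine (small_sum _ _ fun a _ =>
      Small.smul (p a) (hpd a) (hpl a) (hsmall t ht.le a l)).mono le_rfl (le_of_eq ?_)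
    rw [sum_const, card_univ, Fintype.card_eq_nat_card, Nat.card_fun, Nat.card_fin, Nat.card_fin,
      nsmul_eq_mul, hBG, sideA]
    push_cast
    ring
  have hBGU : BG ≤ Real.exp (cG * U) :=
    mul_le_exp (by positivity) hn6 (mul_le_exp (by linarith) hLpU hBU)
  have hγ : aeval θ D.q ^ (2 * t + E) * valueSum (θ := θ) (β := β) (lg := lg) N p t l ≠ 0 :=
    mul_ne_zero (pow_ne_zero _ (aeval_ne_zero hθ D.hq)) hne
  obtain ⟨hdet, hdeg, hlen, hval'⟩ := exists_norm_poly D hG (acts_sumMat D c N hrel p t l) hγ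
  have hdegV : ((sumMat D c N p t l).det.natDegree : ℝ) ≤ (2 * ν * cδ + 1) * unitV N := by
    refine (Nat.cast_le.2 hdeg).trans ?_
    push_cast
    rw [← hν]
    linarith [mul_le_mul_of_nonneg_left hδV (show (0 : ℝ) ≤ ν by linarith),
      one_le_unitV hk]
  refine ⟨_, hdet, hdegV, ?_, ?_⟩
  · have h1 : Real.log (len (sumMat D c N p t l).det) ≤ ν * (ν + cG) * U := by
      rw [Real.log_le_iff_le_exp (zero_lt_one.trans_le (one_le_len hdet))]
      refine hlen.trans ?_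
      calc (ν * BG) ^ D.ν ≤ Real.exp ((ν + cG) * U) ^ D.ν :=
            pow_le_pow_left₀ (by positivity)
              (mul_le_exp (by positivity) (cast_le_exp hU1 (by linarith)) hBGU) _
        _ = _ := by rw [← Real.exp_nat_mul, ← hν, mul_assoc]
    have h2 := mul_le_mul_of_nonneg_left hVU (show (0 : ℝ) ≤ 2 * ν * cδ + 1 by positivity)
    linarith
  -- its value
  have hPb : ∀ a, ‖aeval θ (p a)‖ ≤ Lp * Θ ^ δ := fun a => (norm_aeval_le θ _ (hpd a)).trans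
    (mul_le_mul_of_nonneg_right (hpl a) (by positivity))
  have hγ' := norm_valueSum_le D N hlg hind hk hr hPb hzero t l
  have hM' : (N : ℝ) ^ 6 * (Lp * Θ ^ δ * Real.exp (betaSize β * ‖lg‖ * (N : ℝ) ^ 5)) ≤
      Real.exp (cM * U) * Real.exp (betaSize β * ‖lg‖ * (N : ℝ) ^ 5) := by
    rw [← mul_assoc]
    exact mul_le_mul_of_nonneg_right (mul_le_exp (by positivity) hn6
      (mul_le_exp (by positivity) hLpU (pow_le_exp (by linarith) hδU))) (Real.exp_pos _).le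
  have hfac := factorial_le_exp hk ht.le
  have hdecay : ((2 : ℝ) ^ Nat.log 2 N)⁻¹ ^ (ordLow D N * sideS N ^ 3) ≤
      Real.exp (-((N : ℝ) ^ 6 * Nat.log 2 N / (16 * ν))) := decay_le (by linarith) hM
  have hY : ν * (BG * Θ ^ (δ + δ)) + 1 ≤ Real.exp (cY * U) := by
    have hz : BG * Θ ^ (δ + δ) ≤ Real.exp ((cG + Θ * (2 * cδ)) * U) :=
      mul_le_exp (by positivity) hBGU (pow_le_exp (by linarith) h2δ)
    have h1 : (1 : ℝ) ≤ Real.exp ((cG + Θ * (2 * cδ)) * U) := Real.one_le_exp (by positivity)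
    calc ν * (BG * Θ ^ (δ + δ)) + 1 ≤ (ν + 1) * Real.exp ((cG + Θ * (2 * cδ)) * U) := by
          rw [add_mul, one_mul]
          exact add_le_add (mul_le_mul_of_nonneg_left hz (by linarith)) h1
      _ ≤ _ := mul_le_exp (Real.exp_pos _).le (cast_le_exp hU1 (by linarith)) le_rfl
  have hq' : ‖aeval θ D.q‖ ^ (2 * t + E) ≤ Real.exp (‖aeval θ D.q‖ * (8 + cb) * U) :=
    pow_le_exp (norm_nonneg _) (by
      push_cast
      rw [hEV, add_mul]
      linarith [mul_le_mul_of_nonneg_left hVU hcb0])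
  have hspread : 0 ≤ spread D := sum_nonneg fun _ _ => sum_nonneg fun _ _ => by positivity
  refine hval'.trans ?_
  rw [norm_mul, norm_pow]
  set X5 := Real.exp (betaSize β * ‖lg‖ * (N : ℝ) ^ 5) with hX5
  set Z := Real.exp (-((N : ℝ) ^ 6 * Nat.log 2 N / (16 * ν))) with hZ
  have hlgt : ‖lg‖⁻¹ ^ t ≤ Real.exp (‖lg‖⁻¹ * 4 * U) := pow_le_exp (by positivity) htU
  have hgam : ‖valueSum (θ := θ) (β := β) (lg := lg) N p t l‖ ≤
      Real.exp (cg * U) * (X5 * Z) := by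
    refine hγ'.trans ?_
    calc _ ≤ Real.exp (‖lg‖⁻¹ * 4 * U) *
          (Real.exp (40 * U) * (Real.exp (cM * U) * X5 * Z)) := by
          refine mul_le_mul hlgt (mul_le_mul hfac (mul_le_mul hM' hdecay (by positivity)
            (by positivity)) ?_ (Real.exp_pos _).le) ?_ (Real.exp_pos _).le <;> positivity
      _ = _ := by
          rw [hcg, show (‖lg‖⁻¹ * 4 + (40 + cM)) * U = ‖lg‖⁻¹ * 4 * U + (40 * U + cM * U) by ring,
            Real.exp_add, Real.exp_add]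
          simp only [mul_assoc]
  refine (combine_le (norm_nonneg _) hspread (by positivity) hq' hgam (cast_le_exp hU1 hspread)
    hY).trans_eq ?_
  rw [← hν]
  congr 1

end FA.GelfondCubic

end
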