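import Fermat.Agent.Transcendence.GelfondSchneider
import Mathlib.Analysis.SpecialFunctions.Exponential

/-!
# Zeros of exponential polynomials

`f z = ∑ a i exp (w i z)` with `n` frequencies of modulus at most `Δ`: Newton interpolation of
`w ↦ exp (w z)` at the frequencies writes `f z` through the `f ^ (l) 0`, `l < n`, so the maximum
on `|z| ≤ s R` is at most `n s ^ n exp (2 s R Δ)` times that on `|z| ≤ R`. Against the Schwarz
lemma this bounds the zeros in `|z| ≤ R`.
-/

set_option autoImplicit false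

noncomputable section

open Finset Polynomial
open scoped Nat Topology

namespace FA.GelfondCubic

/-- The coordinates of `x ^ k` on the Newton basis at the nodes `u`. -/
def newtonCoord (u : ℕ → ℂ) : ℕ → ℕ → ℂ
  | 0, j => if j = 0 then 1 else 0
  | k + 1, 0 => u 0 * newtonCoord u k 0
  | k + 1, j + 1 => newtonCoord u k j + u (j + 1) * newtonCoord u k (j + 1)

/-- The Newton basis. -/
def newtonPoly (u : ℕ → ℂ) (j : ℕ) : ℂ[X] := ∏ i ∈ range j, (X - C (u i))

theorem norm_newtonCoord_le {u : ℕ → ℂ} {Δ : ℝ} (hu : ∀ i, ‖u i‖ ≤ Δ) : ∀ k j,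
    ‖newtonCoord u k j‖ ≤ (k.choose j : ℝ) * Δ ^ (k - j)
  | 0, j => by
    rcases eq_or_ne j 0 with rfl | hj
    · simp [newtonCoord]
    · simp [newtonCoord, hj, Nat.choose_eq_zero_of_lt (Nat.pos_of_ne_zero hj)]
  | k + 1, 0 => by
    rw [newtonCoord, norm_mul, Nat.choose_zero_right, Nat.cast_one, one_mul, Nat.sub_zero,
      pow_succ']
    have h := norm_newtonCoord_le hu k 0
    rw [Nat.choose_zero_right, Nat.cast_one, one_mul, Nat.sub_zero] at h
    exact mul_le_mul (hu 0) h (norm_nonneg _) ((norm_nonneg _).trans (hu 0))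
  | k + 1, j + 1 => by
    have hΔ : 0 ≤ Δ := (norm_nonneg _).trans (hu 0)
    rw [newtonCoord, Nat.choose_succ_succ', Nat.cast_add, add_mul, Nat.succ_sub_succ]
    refine (norm_add_le _ _).trans (add_le_add (norm_newtonCoord_le hu k j) ?_)
    rw [norm_mul]
    refine (mul_le_mul (hu _) (norm_newtonCoord_le hu k (j + 1)) (norm_nonneg _) hΔ).trans ?_
    rcases lt_or_ge j k with h | h
    · rw [show k - j = k - (j + 1) + 1 by omega, pow_succ]
      exact le_of_eq (by ring)
    · simp [Nat.choose_eq_zero_of_lt (show k < j + 1 by omega)]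

theorem norm_coeff_newtonPoly_le {u : ℕ → ℂ} {Δ : ℝ} (hu : ∀ i, ‖u i‖ ≤ Δ) : ∀ j l,
    ‖(newtonPoly u j).coeff l‖ ≤ (j.choose l : ℝ) * Δ ^ (j - l) := by
  have hΔ : 0 ≤ Δ := (norm_nonneg _).trans (hu 0)
  intro j
  induction j with
  | zero =>
    intro l
    rcases eq_or_ne l 0 with rfl | hl
    · simp [newtonPoly]
    · simp [newtonPoly, coeff_one, hl, Nat.choose_eq_zero_of_lt (Nat.pos_of_ne_zero hl)]
  | succ j ih =>
    intro l
    rw [newtonPoly, prod_range_succ, ← newtonPoly]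
    cases l with
    | zero =>
      rw [mul_coeff_zero, coeff_sub, coeff_X_zero, zero_sub, coeff_C_zero, norm_mul, norm_neg,
        Nat.choose_zero_right, Nat.cast_one, one_mul, Nat.sub_zero, pow_succ]
      refine mul_le_mul ?_ (hu j) (norm_nonneg _) (pow_nonneg hΔ j)
      simpa using ih 0
    | succ l =>
      rw [coeff_mul_X_sub_C, Nat.choose_succ_succ', Nat.cast_add, add_mul, Nat.succ_sub_succ]
      refine (norm_sub_le _ _).trans (add_le_add (ih l) ?_)
      rw [norm_mul]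
      refine (mul_le_mul (ih (l + 1)) (hu j) (norm_nonneg _) (by positivity)).trans ?_
      rcases lt_or_ge l j with h | h
      · rw [show j - l = j - (l + 1) + 1 by omega, pow_succ, mul_assoc]
      · simp [Nat.choose_eq_zero_of_lt (show j < l + 1 by omega)]

theorem pow_eq_sum_newton {u : ℕ → ℂ} {n : ℕ} {x : ℂ} (hx : (newtonPoly u n).eval x = 0) :
    ∀ k, x ^ k = ∑ j ∈ range n, newtonCoord u k j * (newtonPoly u j).eval x
  | 0 => by
    obtain _ | n := n
    · simp [newtonPoly] at hx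
    · rw [sum_eq_single_of_mem 0 (mem_range.2 (Nat.succ_pos n))
        fun j _ hj => by simp [newtonCoord, hj]]
      simp [newtonCoord, newtonPoly]
  | k + 1 => by
    obtain _ | n := n
    · simp [newtonPoly] at hx
    have hstep : ∀ j, x * (newtonPoly u j).eval x =
        (newtonPoly u (j + 1)).eval x + u j * (newtonPoly u j).eval x := fun j => by
      simp [newtonPoly, prod_range_succ]
      ring
    rw [pow_succ', pow_eq_sum_newton hx k, mul_sum]
    simp only [mul_left_comm x, hstep, mul_add, sum_add_distrib]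
    rw [sum_range_succ (fun j => newtonCoord u k j * (newtonPoly u (j + 1)).eval x), hx, mul_zero,
      add_zero, sum_range_succ' (fun j => newtonCoord u (k + 1) j * _),
      sum_range_succ' (fun j => newtonCoord u k j * (u j * _)), ← add_assoc, ← sum_add_distrib]
    simp only [newtonCoord]
    exact congrArg₂ _ (sum_congr rfl fun j _ => by ring) (by ring)

variable {ι : Type*} [Fintype ι]

/-- An exponential polynomial. -/
def expPoly (a w : ι → ℂ) (z : ℂ) : ℂ := ∑ i, a i * Complex.exp (w i * z)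

theorem differentiable_expPoly (a w : ι → ℂ) : Differentiable ℂ (expPoly a w) :=
  Differentiable.fun_sum fun i _ => by fun_prop

theorem iteratedDeriv_expPoly (a w : ι → ℂ) (k : ℕ) (z : ℂ) :
    iteratedDeriv k (expPoly a w) z = ∑ i, a i * w i ^ k * Complex.exp (w i * z) := by
  show iteratedDeriv k (fun z => ∑ i, a i * Complex.exp (w i * z)) z = _
  rw [iteratedDeriv_fun_sum fun x _ => by fun_prop]
  exact sum_congr rfl fun x _ => by
    rw [iteratedDeriv_const_mul_field, iteratedDeriv_cexp_const_mul, mul_assoc]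

theorem norm_expPoly_le (a w : ι → ℂ) {A Δ r : ℝ} (hA : ∀ i, ‖a i‖ ≤ A) (hw : ∀ i, ‖w i‖ ≤ Δ)
    {z : ℂ} (hz : ‖z‖ ≤ r) : ‖expPoly a w z‖ ≤ Fintype.card ι * (A * Real.exp (Δ * r)) := by
  refine (norm_sum_le _ _).trans ((sum_le_card_nsmul _ _ (A * Real.exp (Δ * r))
    fun i _ => ?_).trans_eq ?_)
  · rw [norm_mul, Complex.norm_exp]
    refine mul_le_mul (hA i) (Real.exp_le_exp.2 ((Complex.re_le_norm _).trans ?_))
      (Real.exp_pos _).le ((norm_nonneg _).trans (hA i))
    rw [norm_mul]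
    exact mul_le_mul (hw i) hz (norm_nonneg _) ((norm_nonneg _).trans (hw i))
  · rw [card_univ, nsmul_eq_mul]

theorem norm_sum_newtonCoord_le {u : ℕ → ℂ} {Δ r : ℝ} (hu : ∀ i, ‖u i‖ ≤ Δ) {z : ℂ}
    (hz : ‖z‖ ≤ r) (j K : ℕ) :
    ‖∑ k ∈ range K, z ^ k / (k ! : ℂ) * newtonCoord u k j‖ ≤
      r ^ j / (j ! : ℝ) * Real.exp (r * Δ) := by
  have hΔ : 0 ≤ Δ := (norm_nonneg _).trans (hu 0)
  have hr0 : 0 ≤ r := (norm_nonneg _).trans hz
  refine (norm_sum_le _ _).trans ((sum_le_sum (g := fun k => r ^ k / (k ! : ℝ) *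
    ((k.choose j : ℝ) * Δ ^ (k - j))) fun k _ => ?_).trans ?_)
  · rw [norm_mul, norm_div, norm_pow, Complex.norm_natCast]
    exact mul_le_mul (div_le_div_of_nonneg_right (pow_le_pow_left₀ (norm_nonneg _) hz k)
      (Nat.cast_nonneg _)) (norm_newtonCoord_le hu k j) (norm_nonneg _) (by positivity)
  refine le_trans (sum_le_sum_of_subset_of_nonneg
    (range_mono (Nat.le_add_left K j)) fun k _ _ => by positivity) ?_
  rw [sum_range_add, sum_eq_zero fun k hk => by
    simp [Nat.choose_eq_zero_of_lt (mem_range.1 hk)], zero_add]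
  refine le_trans (le_of_eq ?_) (mul_le_mul_of_nonneg_left
    (Real.sum_le_exp_of_nonneg (mul_nonneg hr0 hΔ) K) (by positivity))
  rw [mul_sum]
  refine sum_congr rfl fun i _ => ?_
  rw [Nat.cast_choose ℝ (Nat.le_add_right j i), Nat.add_sub_cancel_left, mul_pow, pow_add]
  field_simp

theorem sum_moment_bound_le {Δ R s M : ℝ} (hΔ : 0 ≤ Δ) (hR : 0 < R) (hs : 1 ≤ s) (hM : 0 ≤ M)
    {j n : ℕ} (hjn : j ≤ n) :
    (s * R) ^ j / (j ! : ℝ) *
        ∑ l ∈ range (j + 1), (j.choose l : ℝ) * Δ ^ (j - l) * ((l ! : ℝ) * M / R ^ l) ≤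
      s ^ n * Real.exp (s * R * Δ) * M := by
  rw [← sum_range_reflect, mul_sum, mul_right_comm]
  refine le_trans (le_trans (sum_le_sum (g := fun i => s ^ n * M * ((s * R * Δ) ^ i / (i ! : ℝ)))
    fun i hi => ?_) (le_of_eq (mul_sum _ _ _).symm))
    (mul_le_mul_of_nonneg_left (Real.sum_le_exp_of_nonneg (by positivity) (j + 1)) (by positivity))
  obtain ⟨l, rfl⟩ := Nat.exists_eq_add_of_le (Nat.lt_succ_iff.1 (mem_range.1 hi))
  rw [show i + l + 1 - 1 - i = l by omega, Nat.cast_choose ℝ (Nat.le_add_left l i),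
    Nat.add_sub_cancel]
  refine le_trans (le_of_eq ?_) (mul_le_mul_of_nonneg_right (mul_le_mul_of_nonneg_right
    (pow_le_pow_right₀ hs (show l ≤ n by omega)) hM) (by positivity))
  simp only [mul_pow, pow_add]
  field_simp

theorem natDegree_newtonPoly_le (u : ℕ → ℂ) (j : ℕ) : (newtonPoly u j).natDegree ≤ j := by
  rw [newtonPoly]
  refine (natDegree_prod_le _ _).trans ?_
  refine (sum_le_card_nsmul _ _ 1 fun i _ => natDegree_X_sub_C_le _).trans_eq ?_
  rw [card_range, smul_eq_mul, mul_one]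

/-- The moments through the first `n` of them. -/
theorem moment_eq (a w : ι → ℂ) {u : ℕ → ℂ} {n : ℕ}
    (hroot : ∀ i, (newtonPoly u n).eval (w i) = 0) (k : ℕ) :
    ∑ i, a i * w i ^ k = ∑ j ∈ range n, newtonCoord u k j *
      ∑ l ∈ range (j + 1), (newtonPoly u j).coeff l * ∑ i, a i * w i ^ l := by
  have heval : ∀ (j : ℕ) (x : ℂ), (newtonPoly u j).eval x =
      ∑ l ∈ range (j + 1), (newtonPoly u j).coeff l * x ^ l := fun j x =>
    eval_eq_sum_range' (Nat.lt_succ_of_le (natDegree_newtonPoly_le u j)) x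
  calc ∑ i, a i * w i ^ k
      = ∑ i, ∑ j ∈ range n, newtonCoord u k j * (a i * (newtonPoly u j).eval (w i)) :=
        sum_congr rfl fun i _ => by
          rw [pow_eq_sum_newton (hroot i) k, mul_sum]
          exact sum_congr rfl fun j _ => by ring
    _ = _ := by
        rw [sum_comm]
        refine sum_congr rfl fun j _ => ?_
        rw [← mul_sum, sum_congr rfl fun i _ => by rw [heval j (w i), mul_sum], sum_comm]
        refine congrArg _ (sum_congr rfl fun l _ => ?_)
        rw [mul_sum]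
        exact sum_congr rfl fun i _ => by ring

theorem hasSum_expPoly (a w : ι → ℂ) (z : ℂ) :
    HasSum (fun k : ℕ => z ^ k / (k ! : ℂ) * ∑ i, a i * w i ^ k) (expPoly a w z) := by
  have h : ∀ i, HasSum (fun k : ℕ => a i * ((w i * z) ^ k / (k ! : ℂ)))
      (a i * Complex.exp (w i * z)) := fun i => by
    rw [Complex.exp_eq_exp_ℂ]
    exact (NormedSpace.expSeries_div_hasSum_exp (w i * z)).mul_left (a i)
  refine (hasSum_sum fun i (_ : i ∈ univ) => h i).congr_fun fun k => ?_
  rw [mul_sum]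
  exact sum_congr rfl fun i _ => by rw [mul_pow]; ring

/-- **The growth of an exponential polynomial.** -/
theorem norm_expPoly_le_growth (a w : ι → ℂ) {Δ R s M : ℝ} (hw : ∀ i, ‖w i‖ ≤ Δ) (hΔ : 0 ≤ Δ)
    (hR : 0 < R) (hs : 1 ≤ s) (hM : ∀ z : ℂ, ‖z‖ ≤ R → ‖expPoly a w z‖ ≤ M) {z : ℂ}
    (hz : ‖z‖ ≤ s * R) :
    ‖expPoly a w z‖ ≤
      Fintype.card ι * s ^ Fintype.card ι * Real.exp (2 * (s * R * Δ)) * M := by
  classical
  generalize hn : Fintype.card ι = n
  obtain ⟨σ⟩ : Nonempty (ι ≃ Fin n) := ⟨Fintype.equivFinOfCardEq hn⟩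
  set u : ℕ → ℂ := fun k => if h : k < n then w (σ.symm ⟨k, h⟩) else 0 with hudef
  have hu : ∀ k, ‖u k‖ ≤ Δ := fun k => by
    simp only [hudef]
    split_ifs
    · exact hw _
    · simpa using hΔ
  have hroot : ∀ i, (newtonPoly u n).eval (w i) = 0 := fun i => by
    rw [newtonPoly, eval_prod]
    refine prod_eq_zero (mem_range.2 (σ i).2) ?_
    simp [hudef, (σ i).2]
  have hM0 : 0 ≤ M := (norm_nonneg _).trans (hM 0 (by simpa using hR.le))
  have hμ : ∀ l, ‖∑ i, a i * w i ^ l‖ ≤ (l ! : ℝ) * M / R ^ l := fun l => by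
    have h := Complex.norm_iteratedDeriv_le_of_forall_mem_sphere_norm_le l hR
      (differentiable_expPoly a w).diffContOnCl
      fun x hx => hM x (by rw [mem_sphere_zero_iff_norm] at hx; exact hx.le)
    rw [iteratedDeriv_expPoly] at h
    simpa using h
  refine le_of_tendsto (hasSum_expPoly a w z).tendsto_sum_nat.norm
    (Filter.Eventually.of_forall fun K => ?_)
  rw [show ∑ k ∈ range K, z ^ k / (k ! : ℂ) * ∑ i, a i * w i ^ k =
      ∑ j ∈ range n, (∑ k ∈ range K, z ^ k / (k ! : ℂ) * newtonCoord u k j) *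
        ∑ l ∈ range (j + 1), (newtonPoly u j).coeff l * ∑ i, a i * w i ^ l by
    rw [sum_congr rfl fun k _ => by rw [moment_eq a w hroot k, mul_sum], sum_comm]
    exact sum_congr rfl fun j _ => by
      rw [sum_mul]; exact sum_congr rfl fun k _ => by ring]
  refine (norm_sum_le _ _).trans ((sum_le_card_nsmul (range n) _
    (s ^ n * Real.exp (2 * (s * R * Δ)) * M) fun j hj => ?_).trans_eq ?_)
  swap
  · rw [card_range, nsmul_eq_mul]; ring
  rw [norm_mul]
  have hB : ‖∑ l ∈ range (j + 1), (newtonPoly u j).coeff l * ∑ i, a i * w i ^ l‖ ≤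
      ∑ l ∈ range (j + 1), (j.choose l : ℝ) * Δ ^ (j - l) * ((l ! : ℝ) * M / R ^ l) := by
    refine (norm_sum_le _ _).trans (sum_le_sum fun l _ => ?_)
    rw [norm_mul]
    exact mul_le_mul (norm_coeff_newtonPoly_le hu j l) (hμ l) (norm_nonneg _) (by positivity)
  refine (mul_le_mul (norm_sum_newtonCoord_le hu hz j K) hB (norm_nonneg _)
    (by positivity)).trans ?_
  rw [mul_right_comm]
  refine (mul_le_mul_of_nonneg_right (sum_moment_bound_le hΔ hR hs hM0 (mem_range.1 hj).le)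
    (Real.exp_pos _).le).trans_eq ?_
  rw [two_mul (s * R * Δ), Real.exp_add]
  ring

/-- **The Schwarz lemma.** -/
theorem norm_le_of_zeros {F : ℂ → ℂ} (hF : Differentiable ℂ F) (Z : Finset ℂ) (m : ℕ) {r R B : ℝ}
    (hrR : r < R) (hr0 : 0 ≤ r) (hZ : ∀ a ∈ Z, ‖a‖ ≤ r)
    (hzero : ∀ a ∈ Z, ∀ k < m, iteratedDeriv k F a = 0)
    (hB : ∀ z : ℂ, ‖z‖ ≤ R → ‖F z‖ ≤ B) {z : ℂ} (hz : ‖z‖ ≤ r) :
    ‖F z‖ ≤ B * (2 * r / (R - r)) ^ (m * Z.card) := by
  classical
  obtain ⟨G, hG, hfac⟩ := FA.GelfondSchneider.exists_factor Z (r := m) hF fun a ha =>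
    (natCast_le_analyticOrderAt_iff_iteratedDeriv_eq_zero (hF.analyticAt _)).2 (hzero a ha)
  have hR0 : 0 < R := by linarith
  have hB0 : 0 ≤ B := (norm_nonneg _).trans (hB 0 (by simpa using hR0.le))
  have hpr : ∀ w : ℂ, ‖∏ a ∈ Z, (w - a) ^ m‖ = ∏ a ∈ Z, ‖w - a‖ ^ m := fun w => by
    simp [norm_prod, norm_pow]
  have hGb : ‖G z‖ ≤ B / (R - r) ^ (m * Z.card) := by
    refine Complex.norm_le_of_forall_mem_frontier_norm_le (U := Metric.ball (0 : ℂ) R)
      Metric.isBounded_ball hG.diffContOnCl (fun w hw => ?_) ?_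
    · rw [frontier_ball _ hR0.ne', mem_sphere_zero_iff_norm] at hw
      have hFw := hB w hw.le
      rw [hfac w, norm_mul, hpr] at hFw
      rw [le_div_iff₀ (pow_pos (by linarith) _), mul_comm]
      refine le_trans (mul_le_mul_of_nonneg_right ?_ (norm_nonneg _)) hFw
      rw [pow_mul, ← prod_const]
      refine prod_le_prod (fun _ _ => pow_nonneg (by linarith) _) fun a ha => ?_
      refine pow_le_pow_left₀ (by linarith) ?_ m
      have := norm_sub_norm_le w a
      have := hZ a ha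
      linarith
    · rw [closure_ball _ hR0.ne', mem_closedBall_zero_iff]
      linarith
  rw [hfac z, norm_mul, hpr, div_pow, mul_div_assoc', mul_comm B, mul_div_assoc]
  refine mul_le_mul ?_ hGb (norm_nonneg _) (by positivity)
  rw [pow_mul, ← prod_const]
  refine prod_le_prod (fun _ _ => by positivity) fun a ha => pow_le_pow_left₀ (norm_nonneg _) ?_ m
  have := norm_sub_le z a
  have := hZ a ha
  linarith

/-- **The zero estimate**: not all `m |Z|` derivatives vanish once
`4 ^ (m |Z|) > n 9 ^ n exp (18 R Δ)`. -/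
theorem zero_estimate (a w : ι → ℂ) (hw : Function.Injective w) (ha : a ≠ 0) {Δ R : ℝ}
    (hΔ : 0 ≤ Δ) (hwb : ∀ i, ‖w i‖ ≤ Δ) (hR : 0 < R) (Z : Finset ℂ) (hZ : ∀ z ∈ Z, ‖z‖ ≤ R)
    {m : ℕ} (hzero : ∀ z ∈ Z, ∀ k < m, iteratedDeriv k (expPoly a w) z = 0) :
    (4 : ℝ) ^ (m * Z.card) ≤
      Fintype.card ι * 9 ^ Fintype.card ι * Real.exp (18 * R * Δ) := by
  set f := expPoly a w
  obtain ⟨z₀, hz₀, hmax⟩ := (isCompact_closedBall (0 : ℂ) R).exists_isMaxOn
    ⟨0, Metric.mem_closedBall_self hR.le⟩ (differentiable_expPoly a w).continuous.norm.continuousOn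
  set M := ‖f z₀‖ with hMdef
  have hM : ∀ z : ℂ, ‖z‖ ≤ R → ‖f z‖ ≤ M := fun z hz => hmax (mem_closedBall_zero_iff.2 hz)
  have hMpos : 0 < M := by
    refine (norm_nonneg _).lt_of_ne fun h0 => ha ?_
    refine FA.GelfondSchneider.eq_zero_of_power_sums a w hw fun k => ?_
    have h := Complex.norm_iteratedDeriv_le_of_forall_mem_sphere_norm_le k hR
      (differentiable_expPoly a w).diffContOnCl
      fun x hx => hM x (by rw [mem_sphere_zero_iff_norm] at hx; exact hx.le)
    rw [iteratedDeriv_expPoly] at h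
    rw [show M = 0 from h0.symm, mul_zero, zero_div, norm_le_zero_iff] at h
    simpa using h
  have hgrow := fun z hz => norm_expPoly_le_growth a w hwb hΔ hR (show (1 : ℝ) ≤ 9 by norm_num)
    hM (z := z) hz
  have h := norm_le_of_zeros (differentiable_expPoly a w) Z m (show R < 9 * R by linarith) hR.le
    hZ hzero hgrow (mem_closedBall_zero_iff.1 hz₀)
  rw [show 2 * R / (9 * R - R) = (1 / 4 : ℝ) by field_simp; norm_num, one_div, inv_pow,
    show 2 * (9 * R * Δ) = 18 * R * Δ by ring, ← div_eq_mul_inv, le_div_iff₀ (by positivity),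
    mul_comm M] at h
  exact le_of_mul_le_mul_right h hMpos

end FA.GelfondCubic

end
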