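import Mathlib.Analysis.Polynomial.MahlerMeasure
import Mathlib.LinearAlgebra.Matrix.Determinant.Basic
import Mathlib.Analysis.Complex.ExponentialBounds
import Mathlib.Algebra.Polynomial.AlgebraMap

/-!
# Lengths and sizes of integral polynomials

`len` is the sum of the absolute values of the coefficients, `size` the degree plus the logarithm
of the Mahler measure, which is additive on products.
-/

set_option autoImplicit false

noncomputable section

open Finset Polynomial

namespace FA.GelfondCubic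

/-- The sum of the absolute values of the coefficients. -/
def len (P : ℤ[X]) : ℝ := ∑ i ∈ P.support, |(P.coeff i : ℝ)|

theorem len_eq_sum_range {P : ℤ[X]} {N : ℕ} (h : P.natDegree < N) :
    len P = ∑ i ∈ range N, |(P.coeff i : ℝ)| :=
  sum_subset (fun i hi => mem_range.2 ((le_natDegree_of_mem_supp i hi).trans_lt h))
    fun i _ hi => by simp [notMem_support_iff.1 hi]

theorem len_nonneg (P : ℤ[X]) : 0 ≤ len P := sum_nonneg fun _ _ => abs_nonneg _

theorem len_zero : len 0 = 0 := by simp [len]

theorem len_monomial (k : ℕ) (a : ℤ) : len (monomial k a) = |(a : ℝ)| := by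
  rcases eq_or_ne a 0 with rfl | ha
  · simp [len]
  · simp [len, support_monomial k ha, coeff_monomial]

theorem len_C (a : ℤ) : len (C a) = |(a : ℝ)| := by
  rw [← monomial_zero_left, len_monomial]

theorem len_one : len 1 = 1 := by
  rw [← map_one C, len_C]; simp

theorem len_add_le (P Q : ℤ[X]) : len (P + Q) ≤ len P + len Q := by
  have h1 : (P + Q).natDegree < P.natDegree + Q.natDegree + 1 := by
    have := natDegree_add_le P Q; omega
  rw [len_eq_sum_range h1, len_eq_sum_range (show P.natDegree < P.natDegree + Q.natDegree + 1 by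
    omega), len_eq_sum_range (show Q.natDegree < P.natDegree + Q.natDegree + 1 by omega),
    ← sum_add_distrib]
  refine sum_le_sum fun i _ => ?_
  rw [coeff_add, Int.cast_add]
  exact abs_add_le _ _

theorem len_neg (P : ℤ[X]) : len (-P) = len P := by
  simp [len, support_neg]

theorem len_sum_le {ι : Type*} (s : Finset ι) (F : ι → ℤ[X]) :
    len (∑ i ∈ s, F i) ≤ ∑ i ∈ s, len (F i) :=
  le_sum_of_subadditive len len_zero.le len_add_le s F

theorem len_mul_le (P Q : ℤ[X]) : len (P * Q) ≤ len P * len Q := by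
  conv_lhs => rw [P.as_sum_support, Q.as_sum_support, sum_mul_sum]
  rw [show len P * len Q =
    (∑ i ∈ P.support, |(P.coeff i : ℝ)|) * ∑ j ∈ Q.support, |(Q.coeff j : ℝ)| from rfl, sum_mul_sum]
  refine (len_sum_le _ _).trans (sum_le_sum fun i _ => ?_)
  refine (len_sum_le _ _).trans (sum_le_sum fun j _ => ?_)
  rw [monomial_mul_monomial, len_monomial, Int.cast_mul, abs_mul]

theorem len_pow_le (P : ℤ[X]) (k : ℕ) : len (P ^ k) ≤ len P ^ k := by
  induction k with
  | zero => simp [len_one]
  | succ k ih =>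
    rw [pow_succ, pow_succ]
    exact (len_mul_le _ _).trans (mul_le_mul_of_nonneg_right ih (len_nonneg _))

theorem len_prod_le {ι : Type*} (s : Finset ι) (F : ι → ℤ[X]) :
    len (∏ i ∈ s, F i) ≤ ∏ i ∈ s, len (F i) := by
  classical
  induction s using Finset.induction with
  | empty => simp [len_one]
  | insert a s ha ih =>
    rw [prod_insert ha, prod_insert ha]
    exact (len_mul_le _ _).trans (mul_le_mul_of_nonneg_left ih (len_nonneg _))

theorem abs_coeff_le_len (P : ℤ[X]) (i : ℕ) : |(P.coeff i : ℝ)| ≤ len P := by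
  by_cases h : i ∈ P.support
  · exact single_le_sum (f := fun i => |(P.coeff i : ℝ)|) (fun _ _ => abs_nonneg _) h
  · simp [notMem_support_iff.1 h, len_nonneg P]

theorem one_le_len {P : ℤ[X]} (h : P ≠ 0) : 1 ≤ len P := by
  refine le_trans ?_ (abs_coeff_le_len P P.natDegree)
  exact_mod_cast Int.one_le_abs (leadingCoeff_ne_zero.2 h)

theorem norm_aeval_le (θ : ℂ) (P : ℤ[X]) {d : ℕ} (hd : P.natDegree ≤ d) :
    ‖aeval θ P‖ ≤ len P * max 1 ‖θ‖ ^ d := by
  rw [aeval_eq_sum_range' (Nat.lt_succ_of_le hd), len_eq_sum_range (Nat.lt_succ_of_le hd), sum_mul]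
  refine (norm_sum_le _ _).trans (sum_le_sum fun i hi => ?_)
  rw [zsmul_eq_mul, norm_mul, Complex.norm_intCast, norm_pow]
  refine mul_le_mul_of_nonneg_left ?_ (abs_nonneg _)
  exact (pow_le_pow_left₀ (norm_nonneg _) (le_max_right _ _) i).trans
    (pow_le_pow_right₀ (le_max_left _ _) (Nat.lt_succ_iff.1 (mem_range.1 hi)))

/-- The Mahler measure. -/
def mahler (P : ℤ[X]) : ℝ := (P.map (Int.castRingHom ℂ)).mahlerMeasure

theorem one_le_mahler {P : ℤ[X]} (h : P ≠ 0) : 1 ≤ mahler P := by
  refine one_le_mahlerMeasure_of_one_le_norm_leadingCoeff ?_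
  rw [leadingCoeff_map_of_injective (RingHom.injective_int _), eq_intCast, Complex.norm_intCast]
  exact_mod_cast Int.one_le_abs (leadingCoeff_ne_zero.2 h)

theorem mahler_le_len (P : ℤ[X]) : mahler P ≤ len P := by
  refine (mahlerMeasure_le_sum_norm_coeff _).trans_eq ?_
  rw [sum_def, support_map_of_injective _ (RingHom.injective_int _)]
  simp [len, Complex.norm_intCast]

theorem len_le_two_pow_mul_mahler (P : ℤ[X]) : len P ≤ 2 ^ P.natDegree * mahler P := by
  rw [len_eq_sum_range (Nat.lt_succ_self _),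
    show (2 : ℝ) ^ P.natDegree = ∑ i ∈ range (P.natDegree + 1), (P.natDegree.choose i : ℝ) by
      exact_mod_cast (Nat.sum_range_choose _).symm, sum_mul]
  refine sum_le_sum fun i _ => ?_
  have h := norm_coeff_le_choose_mul_mahlerMeasure i (P.map (Int.castRingHom ℂ))
  rw [coeff_map, natDegree_map_eq_of_injective (RingHom.injective_int _), eq_intCast,
    Complex.norm_intCast] at h
  exact h

/-- The size: the degree plus the logarithm of the Mahler measure. -/
def size (P : ℤ[X]) : ℝ := P.natDegree + Real.log (mahler P)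

theorem natDegree_le_size {P : ℤ[X]} (h : P ≠ 0) : (P.natDegree : ℝ) ≤ size P :=
  le_add_of_nonneg_right (Real.log_nonneg (one_le_mahler h))

theorem size_nonneg {P : ℤ[X]} (h : P ≠ 0) : 0 ≤ size P :=
  (Nat.cast_nonneg _).trans (natDegree_le_size h)

theorem size_mul {P Q : ℤ[X]} (hP : P ≠ 0) (hQ : Q ≠ 0) : size (P * Q) = size P + size Q := by
  have h : mahler (P * Q) = mahler P * mahler Q := by
    rw [mahler, mahler, mahler, Polynomial.map_mul, mahlerMeasure_mul]
  unfold size
  rw [natDegree_mul hP hQ, h, Real.log_mul (one_le_mahler hP |> zero_lt_one.trans_le).ne'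
    (one_le_mahler hQ |> zero_lt_one.trans_le).ne']
  push_cast
  ring

theorem log_len_le_size {P : ℤ[X]} (h : P ≠ 0) : Real.log (len P) ≤ size P := by
  have h2 := (Real.log_le_log (zero_lt_one.trans_le (one_le_len h))
    (len_le_two_pow_mul_mahler P))
  rw [Real.log_mul (by positivity) (zero_lt_one.trans_le (one_le_mahler h)).ne',
    Real.log_pow] at h2
  unfold size
  nlinarith [Real.log_two_lt_d9, (Nat.cast_nonneg P.natDegree : (0 : ℝ) ≤ P.natDegree)]

theorem size_le {P : ℤ[X]} (h : P ≠ 0) : size P ≤ P.natDegree + Real.log (len P) :=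
  (add_le_add_iff_left _).2 (Real.log_le_log (zero_lt_one.trans_le (one_le_mahler h))
    (mahler_le_len P))

/-- `‖det A‖ ≤ ∏ j, ∑ i, ‖A i j‖`. -/
theorem norm_det_le_prod {ι : Type*} [Fintype ι] [DecidableEq ι] (A : Matrix ι ι ℂ) :
    ‖A.det‖ ≤ ∏ j, ∑ i, ‖A i j‖ := by
  rw [Matrix.det_apply, Fintype.prod_sum]
  refine (norm_sum_le _ _).trans ?_
  refine le_trans (le_of_eq (sum_congr rfl fun σ _ => ?_))
    ((sum_map univ ⟨fun σ : Equiv.Perm ι => (σ : ι → ι), DFunLike.coe_injective⟩
      (fun f : ι → ι => ∏ j, ‖A (f j) j‖)).symm.le.trans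
      (sum_le_univ_sum_of_nonneg fun f => prod_nonneg fun _ _ => norm_nonneg _))
  rcases Int.units_eq_one_or (Equiv.Perm.sign σ) with h | h <;>
    simp [h, norm_prod]

end FA.GelfondCubic

end
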