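import Fermat.Agent.GelfondCubic.Field
import Fermat.Agent.GelfondCubic.Length
import Mathlib.Analysis.Complex.Exponential

/-!
# The matrices of the values

With `β ³ = c 0 + c 1 β + c 2 β ²` the numbers `(λ x) ^ t exp ((λ x) (l x) L)`, `x = (1, β, β ²)`,
are, up to a common power of the denominator, products of the fixed matrices.
-/

set_option autoImplicit false

noncomputable section

open Finset Polynomial Matrix

namespace FA.GelfondCubic

variable {ν : ℕ} {θ : ℂ} {w : Fin ν → ℂ}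

/-- The entries have degree at most `d` and length at most `B`. -/
def Small (M : Matrix (Fin ν) (Fin ν) ℤ[X]) (d : ℕ) (B : ℝ) : Prop :=
  ∀ i j, (M i j).natDegree ≤ d ∧ len (M i j) ≤ B

theorem Small.mono {M : Matrix (Fin ν) (Fin ν) ℤ[X]} {d d' : ℕ} {B B' : ℝ} (h : Small M d B)
    (hd : d ≤ d') (hB : B ≤ B') : Small M d' B' :=
  fun i j => ⟨(h i j).1.trans hd, (h i j).2.trans hB⟩

theorem small_one : Small (1 : Matrix (Fin ν) (Fin ν) ℤ[X]) 0 1 := fun i j => by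
  rcases eq_or_ne i j with rfl | h
  · simp [len_one]
  · simp [Matrix.one_apply_ne h, len_zero]

theorem Small.mul {M N : Matrix (Fin ν) (Fin ν) ℤ[X]} {d d' : ℕ} {B B' : ℝ} (h : Small M d B)
    (h' : Small N d' B') : Small (M * N) (d + d') ((ν : ℝ) * (B * B')) := fun i j => by
  rw [Matrix.mul_apply]
  refine ⟨natDegree_sum_le_of_forall_le _ _ fun k _ => natDegree_mul_le.trans
    (Nat.add_le_add (h i k).1 (h' k j).1), ?_⟩
  refine (len_sum_le _ _).trans ((sum_le_card_nsmul _ _ _ fun k _ => (len_mul_le _ _).trans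
    (mul_le_mul (h i k).2 (h' k j).2 (len_nonneg _) ((len_nonneg _).trans (h i k).2))).trans_eq ?_)
  rw [card_univ, Fintype.card_fin, nsmul_eq_mul]

theorem Small.pow {M : Matrix (Fin ν) (Fin ν) ℤ[X]} {d : ℕ} {B : ℝ} (h : Small M d B) :
    ∀ k, Small (M ^ k) (k * d) (((ν : ℝ) * B) ^ k)
  | 0 => by simpa using small_one
  | k + 1 => by
    rw [pow_succ, Nat.succ_mul]
    refine ((h.pow k).mul h).mono le_rfl (le_of_eq ?_)
    rw [pow_succ]
    ring

theorem Small.smul {M : Matrix (Fin ν) (Fin ν) ℤ[X]} {d d' : ℕ} {B B' : ℝ} (p : ℤ[X])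
    (hp : p.natDegree ≤ d') (hp' : len p ≤ B') (h : Small M d B) :
    Small (p • M) (d' + d) (B' * B) := fun i j => by
  rw [Matrix.smul_apply, smul_eq_mul]
  exact ⟨natDegree_mul_le.trans (Nat.add_le_add hp (h i j).1), (len_mul_le _ _).trans
    (mul_le_mul hp' (h i j).2 (len_nonneg _) ((len_nonneg _).trans hp'))⟩

theorem small_sum {ι : Type*} (s : Finset ι) (M : ι → Matrix (Fin ν) (Fin ν) ℤ[X]) {d : ℕ}
    {B : ι → ℝ} (h : ∀ x ∈ s, Small (M x) d (B x)) : Small (∑ x ∈ s, M x) d (∑ x ∈ s, B x) :=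
  fun i j => by
    rw [Matrix.sum_apply]
    exact ⟨natDegree_sum_le_of_forall_le _ _ fun x hx => (h x hx i j).1,
      (len_sum_le _ _).trans (sum_le_sum fun x hx => (h x hx i j).2)⟩

/-- At `θ` the matrix multiplies `w` by `s`. -/
def Acts (θ : ℂ) (w : Fin ν → ℂ) (M : Matrix (Fin ν) (Fin ν) ℤ[X]) (s : ℂ) : Prop :=
  (aeval θ).toRingHom.mapMatrix M *ᵥ w = s • w

theorem acts_one : Acts θ w 1 1 := by rw [Acts, map_one, one_mulVec, one_smul]

theorem Acts.mul {M N : Matrix (Fin ν) (Fin ν) ℤ[X]} {s t : ℂ} (h : Acts θ w M s)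
    (h' : Acts θ w N t) : Acts θ w (M * N) (s * t) := by
  rw [Acts, map_mul, ← mulVec_mulVec, h', mulVec_smul, h, smul_smul, mul_comm t]

theorem Acts.pow {M : Matrix (Fin ν) (Fin ν) ℤ[X]} {s : ℂ} (h : Acts θ w M s) :
    ∀ k, Acts θ w (M ^ k) (s ^ k)
  | 0 => by simpa using acts_one
  | k + 1 => by rw [pow_succ, pow_succ]; exact (h.pow k).mul h

theorem Acts.smul {M : Matrix (Fin ν) (Fin ν) ℤ[X]} {s : ℂ} (p : ℤ[X]) (h : Acts θ w M s) :
    Acts θ w (p • M) (aeval θ p * s) := by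
  have e : (aeval θ).toRingHom.mapMatrix (p • M) =
      aeval θ p • (aeval θ).toRingHom.mapMatrix M := by
    ext i j
    simp
  rw [Acts, e, smul_mulVec, h, smul_smul]

theorem acts_sum {ι : Type*} (s : Finset ι) (M : ι → Matrix (Fin ν) (Fin ν) ℤ[X]) (c : ι → ℂ)
    (h : ∀ x ∈ s, Acts θ w (M x) (c x)) : Acts θ w (∑ x ∈ s, M x) (∑ x ∈ s, c x) := by
  rw [Acts, map_sum, sum_mulVec, sum_smul]
  exact sum_congr rfl fun x hx => h x hx

/-- The generators: `1`, `β` and `exp (± β ^ i L)`, `i ≤ 2`. -/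
def gen (β lg : ℂ) : Fin 2 ⊕ (Fin 3 × Bool) → ℂ
  | .inl i => β ^ (i : ℕ)
  | .inr (i, b) => Complex.exp ((if b then 1 else -1) * (β ^ (i : ℕ) * lg))

/-- The matrices of the generators. -/
structure Data (θ β lg : ℂ) where
  /-- the degree -/
  ν : ℕ
  /-- the basis -/
  w : Fin ν → ℂ
  /-- the denominator -/
  q : ℤ[X]
  /-- the matrices -/
  M : Fin 2 ⊕ (Fin 3 × Bool) → Matrix (Fin ν) (Fin ν) ℤ[X]
  /-- the degree is positive -/
  hν : 0 < ν
  /-- no entry of the basis is zero -/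
  hw : ∀ i, w i ≠ 0
  /-- the denominator is not zero -/
  hq : q ≠ 0
  /-- the action -/
  act : ∀ x, Acts θ w (M x) (aeval θ q * gen β lg x)
  /-- independence over `ℤ[θ]` -/
  indep : ∀ c : Fin ν → ℤ[X], ∑ i, aeval θ (c i) * w i = 0 → c = 0

/-- `β ^ k` on `1, β, β ²`, for `k ≤ 4`. -/
def betaCoord (c : Fin 3 → ℤ) : ℕ → Fin 3 → ℤ
  | 0 => ![1, 0, 0]
  | 1 => ![0, 1, 0]
  | 2 => ![0, 0, 1]
  | 3 => c
  | _ => ![c 2 * c 0, c 0 + c 2 * c 1, c 1 + c 2 * c 2]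

theorem pow_eq_betaCoord {β : ℂ} {c : Fin 3 → ℤ} (h : β ^ 3 = ∑ i, (c i : ℂ) * β ^ (i : ℕ)) :
    ∀ k ≤ 4, β ^ k = ∑ i, (betaCoord c k i : ℂ) * β ^ (i : ℕ) := by
  intro k hk
  interval_cases k <;> simp only [betaCoord] <;> simp [Fin.sum_univ_three] at h ⊢
  · exact h
  · linear_combination (β + (c 2 : ℂ)) * h

/-- The point with coordinates `l`. -/
def point {S : ℕ} (β : ℂ) (l : Fin 3 → Fin S) : ℂ := ∑ i, ((l i : ℕ) : ℂ) * β ^ (i : ℕ)

/-- The coordinates of the product of two points. -/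
def prodCoord {A S : ℕ} (c : Fin 3 → ℤ) (a : Fin 3 → Fin A) (l : Fin 3 → Fin S) (k : Fin 3) : ℤ :=
  ∑ i, ∑ j, ((a i : ℕ) : ℤ) * ((l j : ℕ) : ℤ) * betaCoord c ((i : ℕ) + (j : ℕ)) k

theorem point_mul_point {A S : ℕ} {β : ℂ} {c : Fin 3 → ℤ}
    (h : β ^ 3 = ∑ i, (c i : ℂ) * β ^ (i : ℕ)) (a : Fin 3 → Fin A) (l : Fin 3 → Fin S) :
    point β a * point β l = ∑ k, (prodCoord c a l k : ℂ) * β ^ (k : ℕ) := by
  have hk : ∀ i j : Fin 3, (i : ℕ) + (j : ℕ) ≤ 4 := fun i j => by omega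
  rw [point, point, sum_mul_sum]
  simp only [prodCoord, Int.cast_sum, sum_mul]
  rw [sum_comm (γ := Fin 3) (f := fun k i => ∑ j, _)]
  refine sum_congr rfl fun i _ => ?_
  rw [sum_comm (γ := Fin 3) (f := fun k j => _)]
  refine sum_congr rfl fun j _ => ?_
  simp only [Int.cast_mul, Int.cast_natCast]
  rw [show ((a i : ℕ) : ℂ) * β ^ (i : ℕ) * (((l j : ℕ) : ℂ) * β ^ (j : ℕ)) =
    ((a i : ℕ) : ℂ) * ((l j : ℕ) : ℂ) * β ^ ((i : ℕ) + (j : ℕ)) by rw [pow_add]; ring,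
    pow_eq_betaCoord h _ (hk i j), mul_sum]
  exact sum_congr rfl fun k _ => by ring

/-- The factor of `E`. -/
def coordBound (c : Fin 3 → ℤ) : ℕ :=
  ∑ i : Fin 3, ∑ j : Fin 3, ∑ k : Fin 3, (betaCoord c ((i : ℕ) + (j : ℕ)) k).natAbs

theorem sum_natAbs_prodCoord_le {A S : ℕ} (c : Fin 3 → ℤ) (a : Fin 3 → Fin A)
    (l : Fin 3 → Fin S) : ∑ k, (prodCoord c a l k).natAbs ≤ coordBound c * (A * S) := by
  rw [coordBound, sum_mul]
  refine le_trans (sum_le_sum fun k _ => (Int.natAbs_sum_le _ _).trans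
    (sum_le_sum fun i _ => Int.natAbs_sum_le _ _)) ?_
  rw [sum_comm]
  refine sum_le_sum fun i _ => ?_
  rw [sum_comm, sum_mul]
  refine sum_le_sum fun j _ => ?_
  rw [sum_mul]
  refine sum_le_sum fun k _ => ?_
  rw [Int.natAbs_mul, Int.natAbs_mul, Int.natAbs_natCast, Int.natAbs_natCast, mul_comm]
  exact Nat.mul_le_mul_left _ (Nat.mul_le_mul (a i).2.le (l j).2.le)

variable {β lg : ℂ} (D : Data θ β lg)

/-- A power of `exp (β ^ i L)` with integral exponent. -/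
def expMat (i : Fin 3) (m : ℤ) : Matrix (Fin D.ν) (Fin D.ν) ℤ[X] :=
  D.M (.inr (i, decide (0 ≤ m))) ^ m.natAbs

theorem acts_expMat (i : Fin 3) (m : ℤ) :
    Acts θ D.w (expMat D i m) (aeval θ D.q ^ m.natAbs *
      Complex.exp ((m : ℂ) * (β ^ (i : ℕ) * lg))) := by
  have h := (D.act (.inr (i, decide (0 ≤ m)))).pow m.natAbs
  rw [mul_pow, gen, ← Complex.exp_nat_mul] at h
  have e : ((m.natAbs : ℕ) : ℂ) *
      ((if decide (0 ≤ m) = true then 1 else -1) * (β ^ (i : ℕ) * lg)) =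
      (m : ℂ) * (β ^ (i : ℕ) * lg) := by
    rcases le_or_gt 0 m with hm | hm
    · obtain ⟨n, rfl⟩ := Int.eq_ofNat_of_zero_le hm
      simp
    · obtain ⟨n, rfl⟩ : ∃ n : ℕ, m = -(n : ℤ) := ⟨m.natAbs, by omega⟩
      rw [decide_eq_false (not_le.2 hm)]
      simp
  rw [e] at h
  exact h

/-- The matrix of `(a x) ^ t exp ((a x) (l x) L)`, padded to the exponent `E`. -/
def valueMat {A S : ℕ} (c : Fin 3 → ℤ) (E t : ℕ) (a : Fin 3 → Fin A) (l : Fin 3 → Fin S) :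
    Matrix (Fin D.ν) (Fin D.ν) ℤ[X] :=
  (C ((a 0 : ℕ) : ℤ) • (D.M (.inl 0) * D.M (.inl 0)) +
      C ((a 1 : ℕ) : ℤ) • (D.M (.inl 0) * D.M (.inl 1)) +
      C ((a 2 : ℕ) : ℤ) • (D.M (.inl 1) * D.M (.inl 1))) ^ t *
    (expMat D 0 (prodCoord c a l 0) * expMat D 1 (prodCoord c a l 1) *
      expMat D 2 (prodCoord c a l 2) *
      D.M (.inl 0) ^ (E - ∑ k, (prodCoord c a l k).natAbs))

theorem acts_valueMat {A S : ℕ} {c : Fin 3 → ℤ} (h : β ^ 3 = ∑ i, (c i : ℂ) * β ^ (i : ℕ))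
    {E : ℕ} (t : ℕ) (a : Fin 3 → Fin A) (l : Fin 3 → Fin S)
    (hE : ∑ k, (prodCoord c a l k).natAbs ≤ E) :
    Acts θ D.w (valueMat D c E t a l) (aeval θ D.q ^ (2 * t + E) *
      (point β a ^ t * Complex.exp (point β a * point β l * lg))) := by
  set Q := aeval θ D.q with hQ
  have hsum : ∀ (M₁ M₂ : Matrix (Fin D.ν) (Fin D.ν) ℤ[X]) (s₁ s₂ : ℂ), Acts θ D.w M₁ s₁ →
      Acts θ D.w M₂ s₂ → Acts θ D.w (M₁ + M₂) (s₁ + s₂) := fun M₁ M₂ s₁ s₂ h₁ h₂ => by
    rw [Acts, map_add, add_mulVec, h₁, h₂, add_smul]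
  have hb := ((hsum _ _ _ _ (hsum _ _ _ _
    (((D.act (.inl 0)).mul (D.act (.inl 0))).smul (C ((a 0 : ℕ) : ℤ)))
    (((D.act (.inl 0)).mul (D.act (.inl 1))).smul (C ((a 1 : ℕ) : ℤ))))
    (((D.act (.inl 1)).mul (D.act (.inl 1))).smul (C ((a 2 : ℕ) : ℤ)))).pow t).mul
    ((((acts_expMat D 0 (prodCoord c a l 0)).mul (acts_expMat D 1 (prodCoord c a l 1))).mul
      (acts_expMat D 2 (prodCoord c a l 2))).mul
      ((D.act (.inl 0)).pow (E - ∑ k, (prodCoord c a l k).natAbs)))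
  refine (iff_of_eq (congrArg (Acts θ D.w (valueMat D c E t a l)) ?_)).2 hb
  have hg0 : gen β lg (.inl 0) = 1 := by simp [gen]
  have hg1 : gen β lg (.inl 1) = β := by simp [gen]
  simp only [hg0, hg1, ← hQ, mul_one, map_natCast]
  rw [point_mul_point h, sum_mul, Fin.sum_univ_three, Complex.exp_add, Complex.exp_add]
  simp only [Fin.val_zero, Fin.val_one, Fin.val_two]
  set m₀ := prodCoord c a l 0
  set m₁ := prodCoord c a l 1
  set m₂ := prodCoord c a l 2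
  obtain ⟨r, rfl⟩ : ∃ r, E = m₀.natAbs + m₁.natAbs + m₂.natAbs + r :=
    ⟨_, (Nat.add_sub_cancel' (by rwa [Fin.sum_univ_three] at hE)).symm⟩
  rw [Fin.sum_univ_three, Nat.add_sub_cancel_left, point, Fin.sum_univ_three]
  simp only [Fin.val_zero, Fin.val_one, Fin.val_two, pow_zero, pow_one, mul_one, pow_add, pow_mul]
  rw [show ((a 0 : ℕ) : ℂ) * (Q * Q) + ((a 1 : ℕ) : ℂ) * (Q * (Q * β)) +
      ((a 2 : ℕ) : ℂ) * (Q * β * (Q * β)) =
      Q ^ 2 * (((a 0 : ℕ) : ℂ) + ((a 1 : ℕ) : ℂ) * β + ((a 2 : ℕ) : ℂ) * β ^ 2) by ring, mul_pow]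
  simp only [← mul_assoc (_ : ℂ) _ lg]
  ring_nf

theorem exists_small_valueMat (c : Fin 3 → ℤ) :
    ∃ (d : ℕ) (K : ℝ), 1 ≤ K ∧ ∀ {A S : ℕ} (E t : ℕ) (a : Fin 3 → Fin A) (l : Fin 3 → Fin S),
      1 ≤ A → ∑ k, (prodCoord c a l k).natAbs ≤ E →
        Small (valueMat D c E t a l) (d * (2 * t + E)) (K ^ (t + E + 1) * (A : ℝ) ^ t) := by
  set d := univ.sup fun x => univ.sup fun i => univ.sup fun j => (D.M x i j).natDegree with hd
  set B₀ : ℝ := 1 + ∑ x, ∑ i, ∑ j, len (D.M x i j) with hB₀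
  have hB1 : 1 ≤ B₀ := le_add_of_nonneg_right
    (sum_nonneg fun _ _ => sum_nonneg fun _ _ => sum_nonneg fun _ _ => len_nonneg _)
  have hM : ∀ x, Small (D.M x) d B₀ := fun x i j => by
    refine ⟨?_, ?_⟩
    · rw [hd]
      exact le_trans (le_sup (f := fun j => (D.M x i j).natDegree) (mem_univ j))
        (le_trans (le_sup (f := fun i => univ.sup fun j => (D.M x i j).natDegree) (mem_univ i))
          (le_sup (f := fun x => univ.sup fun i => univ.sup fun j => (D.M x i j).natDegree)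
            (mem_univ x)))
    · rw [hB₀]
      refine le_trans ?_ (le_add_of_nonneg_left zero_le_one)
      exact (single_le_sum (f := fun j => len (D.M x i j)) (fun _ _ => len_nonneg _)
          (mem_univ j)).trans
        ((single_le_sum (f := fun i => ∑ j, len (D.M x i j))
            (fun _ _ => sum_nonneg fun _ _ => len_nonneg _) (mem_univ i)).trans
          (single_le_sum (f := fun x => ∑ i, ∑ j, len (D.M x i j))
            (fun _ _ => sum_nonneg fun _ _ => sum_nonneg fun _ _ => len_nonneg _) (mem_univ x)))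
  set n : ℝ := (D.ν : ℝ) with hn
  have hn1 : 1 ≤ n := by rw [hn]; exact_mod_cast D.hν
  set K : ℝ := 3 * n ^ 4 * B₀ ^ 2 with hK
  have hnK : n * B₀ ≤ K := by
    rw [hK]
    nlinarith [mul_le_mul (le_self_pow₀ hn1 (show 4 ≠ 0 by norm_num))
      (le_self_pow₀ hB1 (show 2 ≠ 0 by norm_num)) (by linarith) (by positivity)]
  have hK1 : 1 ≤ K := (one_le_mul_of_one_le_of_one_le hn1 hB1).trans hnK
  refine ⟨d, K, hK1, fun {A S} E t a l hA hE => ?_⟩
  have hA' : (1 : ℝ) ≤ A := by exact_mod_cast hA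
  have hterm : ∀ (i : Fin 3) (x y : Fin 2 ⊕ (Fin 3 × Bool)),
      Small (C ((a i : ℕ) : ℤ) • (D.M x * D.M y)) (2 * d) ((A : ℝ) * (n * (B₀ * B₀))) :=
    fun i x y => (((hM x).mul (hM y)).smul _ (natDegree_C _).le (B' := (A : ℝ)) (by
      rw [len_C, Int.cast_natCast, Nat.abs_cast]
      exact_mod_cast (a i).2.le)).mono (by omega) le_rfl
  have hP : Small (C ((a 0 : ℕ) : ℤ) • (D.M (.inl 0) * D.M (.inl 0)) +
      C ((a 1 : ℕ) : ℤ) • (D.M (.inl 0) * D.M (.inl 1)) +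
      C ((a 2 : ℕ) : ℤ) • (D.M (.inl 1) * D.M (.inl 1))) (2 * d)
      ((A : ℝ) * (3 * (n * (B₀ * B₀)))) := by
    have h := small_sum (univ : Finset (Fin 3))
      ![C ((a 0 : ℕ) : ℤ) • (D.M (.inl 0) * D.M (.inl 0)),
        C ((a 1 : ℕ) : ℤ) • (D.M (.inl 0) * D.M (.inl 1)),
        C ((a 2 : ℕ) : ℤ) • (D.M (.inl 1) * D.M (.inl 1))]
      (d := 2 * d) (B := fun _ => (A : ℝ) * (n * (B₀ * B₀))) fun i _ => by
        fin_cases i <;> exact hterm _ _ _
    simp only [Fin.sum_univ_three] at h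
    refine h.mono le_rfl (le_of_eq ?_)
    ring
  have hexp : ∀ i m, Small (expMat D i m) (m.natAbs * d) ((n * B₀) ^ m.natAbs) :=
    fun i m => (hM _).pow _
  refine ((hP.pow t).mul ((((hexp 0 _).mul (hexp 1 _)).mul (hexp 2 _)).mul
    ((hM (.inl 0)).pow (E - ∑ k, (prodCoord c a l k).natAbs)))).mono ?_ ?_
  · rw [Fin.sum_univ_three] at hE ⊢
    set r := E - ((prodCoord c a l 0).natAbs + (prodCoord c a l 1).natAbs +
      (prodCoord c a l 2).natAbs) with hr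
    rw [show E = (prodCoord c a l 0).natAbs + (prodCoord c a l 1).natAbs +
      (prodCoord c a l 2).natAbs + r by omega]
    exact le_of_eq (by ring)
  · rw [Fin.sum_univ_three] at hE ⊢
    set m₀ := (prodCoord c a l 0).natAbs
    set m₁ := (prodCoord c a l 1).natAbs
    set m₂ := (prodCoord c a l 2).natAbs
    set r := E - (m₀ + m₁ + m₂) with hr
    rw [← hn]
    calc n * ((n * ((A : ℝ) * (3 * (n * (B₀ * B₀))))) ^ t *
          (n * (n * (n * ((n * B₀) ^ m₀ * (n * B₀) ^ m₁) * (n * B₀) ^ m₂) * (n * B₀) ^ r)))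
        = n ^ 4 * ((3 * n ^ 2 * B₀ ^ 2) ^ t * (n * B₀) ^ (m₀ + m₁ + m₂ + r)) * (A : ℝ) ^ t := by
          simp only [mul_pow, pow_add]; ring_nf
      _ = n ^ 4 * ((3 * n ^ 2 * B₀ ^ 2) ^ t * (n * B₀) ^ E) * (A : ℝ) ^ t := by
          rw [show m₀ + m₁ + m₂ + r = E by omega]
      _ ≤ K * (K ^ t * K ^ E) * (A : ℝ) ^ t := by
          have h4 : n ^ 4 ≤ K := by
            rw [hK]
            nlinarith [mul_le_mul_of_nonneg_left (one_le_pow₀ hB1 (n := 2))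
              (show (0 : ℝ) ≤ n ^ 4 by positivity)]
          have h2 : 3 * n ^ 2 * B₀ ^ 2 ≤ K := by
            rw [hK]
            exact mul_le_mul_of_nonneg_right
              (mul_le_mul_of_nonneg_left (pow_le_pow_right₀ hn1 (by norm_num)) (by norm_num))
              (by positivity)
          gcongr
      _ = K ^ (t + E + 1) * (A : ℝ) ^ t := by rw [pow_succ, pow_add]; ring

end FA.GelfondCubic

end
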