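import Fermat.Agent.GelfondCubic.Criterion
import Fermat.Agent.GelfondCubic.SmallPolynomial
import Mathlib.FieldTheory.Minpoly.IsIntegrallyClosed
import Mathlib.RingTheory.AlgebraicIndependent.AlgebraicClosure
import Mathlib.RingTheory.AlgebraicIndependent.Transcendental
import Mathlib.RingTheory.Polynomial.ScaleRoots

/-!
# Gelfond's theorem

The small polynomials contradict Gelfond's criterion.
-/

set_option autoImplicit false

noncomputable section

open Finset Polynomial Filter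
open scoped IntermediateField

namespace FA.GelfondCubic

theorem not_data {θ β lg : ℂ} (D : Data θ β lg) (c : Fin 3 → ℤ) (hθ : Transcendental ℚ θ)
    (hlg : lg ≠ 0) (hrel : β ^ 3 = ∑ i, (c i : ℂ) * β ^ (i : ℕ))
    (hind : ∀ x : Fin 3 → ℤ, ∑ i, (x i : ℂ) * β ^ (i : ℕ) = 0 → x = 0) : False := by
  obtain ⟨cD, cT, cU, c5, hcD, hcT, hcU, hc5, hev⟩ :=
    exists_small_polynomial D c hθ hlg hrel hind
  obtain ⟨C, hC⟩ := gelfond_criterion hθ (show (0 : ℝ) ≤ 16 by norm_num)
  set Dn : ℕ → ℝ := fun N => cD * unitV N with hDn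
  set Tn : ℕ → ℝ := fun N => cT * unitU N with hTn
  have hk := tendsto_slowPar.eventually_ge_atTop 1
  have hT : Tendsto Tn atTop atTop := by
    refine tendsto_atTop_mono' atTop ?_ tendsto_natCast_atTop_atTop
    filter_upwards [hk] with N hN
    exact ((nat_le_unitV hN).trans (unitV_le_unitU N)).trans
      (le_mul_of_one_le_left (by unfold unitU; positivity) (hcD.trans hcT))
  have hDT : ∀ᶠ N in atTop, 1 ≤ Dn N ∧ Dn N ≤ Tn N ∧ Dn N ≤ 16 * Dn (N + 1) ∧
      Tn N ≤ 16 * Tn (N + 1) ∧ Dn (N + 1) ≤ 16 * Dn N ∧ Tn (N + 1) ≤ 16 * Tn N := by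
    filter_upwards [hk] with N hN
    have hV := unitV_growth hN
    have hU := unitU_growth hN
    have h1 := one_le_unitV hN
    have hD0 : (0 : ℝ) ≤ cD := by linarith
    have hT0 : (0 : ℝ) ≤ cT := by linarith
    refine ⟨one_le_mul_of_one_le_of_one_le hcD h1,
      mul_le_mul hcT (unitV_le_unitU N) (by linarith) hT0, ?_, ?_, ?_, ?_⟩ <;>
      simp only [hDn, hTn]
    · linarith [mul_le_mul_of_nonneg_left hV.1 hD0]
    · linarith [mul_le_mul_of_nonneg_left hU.1 hT0]
    · linarith [mul_le_mul_of_nonneg_left hV.2 hD0]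
    · linarith [mul_le_mul_of_nonneg_left hU.2 hT0]
  set ν : ℝ := (D.ν : ℝ) with hν
  have hν0 : 0 < ν := by rw [hν]; exact_mod_cast D.hν
  set B : ℝ := max 1 (32 * ν * (2 * |C| * cD * cT + 1)) with hB
  have hev' : ∀ᶠ N in atTop, ∃ P : ℤ[X], P ≠ 0 ∧ (P.natDegree : ℝ) ≤ Dn N ∧
      P.natDegree + Real.log (len P) ≤ Tn N ∧
      ‖aeval θ P‖ ≤ Real.exp (-(C * (Dn N * Tn N))) := by
    filter_upwards [hev, tendsto_slowPar.eventually_ge_atTop ⌈B⌉₊,
      eventually_ge_atTop ⌈32 * ν * (2 * cU + c5)⌉₊] with N hN hkN hNc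
    obtain ⟨P, hP0, hd, hs, hsm⟩ := hN
    refine ⟨P, hP0, hd, hs, hsm.trans (Real.exp_le_exp.2 ?_)⟩
    have hkB : B ≤ slowPar N := (Nat.le_ceil B).trans (Nat.cast_le.2 hkN)
    have hk1 : 1 ≤ slowPar N := by exact_mod_cast (le_max_left _ _).trans hkB
    have hk1' : (1 : ℝ) ≤ slowPar N := by exact_mod_cast hk1
    have hN1 : (1 : ℝ) ≤ N := by exact_mod_cast (one_le_of_slowPar hk1).1
    have hl1 : (1 : ℝ) ≤ Nat.log 2 N := by exact_mod_cast (one_le_of_slowPar hk1).2
    set ℓ : ℝ := (Nat.log 2 N : ℝ) with hℓ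
    set X : ℝ := (N : ℝ) ^ 6 * ℓ / (32 * ν) with hX
    -- the terms `O (N ³ ℓ)` and `O (N ⁵)`
    have hsmall : cU * unitU N + c5 * (N : ℝ) ^ 5 ≤ X := by
      have h1 : 32 * ν * (2 * cU + c5) ≤ (N : ℝ) := (Nat.le_ceil _).trans (Nat.cast_le.2 hNc)
      have h3 : (N : ℝ) ^ 3 * ℓ ≤ (N : ℝ) ^ 5 * ℓ :=
        mul_le_mul_of_nonneg_right (pow_le_pow_right₀ hN1 (by norm_num)) (by linarith)
      have h5 : (N : ℝ) ^ 5 ≤ (N : ℝ) ^ 5 * ℓ := le_mul_of_one_le_right (by positivity) hl1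
      have h6 : cU * unitU N + c5 * (N : ℝ) ^ 5 ≤ (2 * cU + c5) * ((N : ℝ) ^ 5 * ℓ) := by
        linarith [mul_le_mul_of_nonneg_left (unitU_le hk1) hcU,
          mul_le_mul_of_nonneg_left h3 hcU, mul_le_mul_of_nonneg_left h5 hc5]
      rw [hX, le_div_iff₀ (by positivity)]
      calc _ ≤ (2 * cU + c5) * ((N : ℝ) ^ 5 * ℓ) * (32 * ν) :=
            mul_le_mul_of_nonneg_right h6 (by positivity)
        _ = 32 * ν * (2 * cU + c5) * ((N : ℝ) ^ 5 * ℓ) := by ring
        _ ≤ (N : ℝ) * ((N : ℝ) ^ 5 * ℓ) := mul_le_mul_of_nonneg_right h1 (by positivity)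
        _ = _ := by ring
    -- the product of the bounds
    have hprod : C * (Dn N * Tn N) ≤ X := by
      have h1 := unitV_mul_unitU_le hk1
      rw [← hℓ] at h1
      have hk2 : (slowPar N : ℝ) ≤ (slowPar N : ℝ) ^ 2 := le_self_pow₀ hk1' (by norm_num)
      have hB' : 32 * ν * (2 * |C| * cD * cT + 1) ≤ (slowPar N : ℝ) ^ 2 :=
        ((le_max_right _ _).trans hkB).trans hk2
      have hcc : 0 ≤ |C| * cD * cT := mul_nonneg (mul_nonneg (abs_nonneg C) (by linarith))
        (by linarith)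
      have hVU : 0 ≤ unitV N * unitU N := by unfold unitV unitU; positivity
      calc C * (Dn N * Tn N) ≤ |C| * cD * cT * (unitV N * unitU N) := by
            simp only [hDn, hTn]
            calc C * (cD * unitV N * (cT * unitU N))
                = C * (cD * cT * (unitV N * unitU N)) := by ring
              _ ≤ |C| * (cD * cT * (unitV N * unitU N)) :=
                  mul_le_mul_of_nonneg_right (le_abs_self C)
                    (mul_nonneg (mul_nonneg (by linarith) (by linarith)) hVU)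
              _ = _ := by ring
        _ ≤ |C| * cD * cT * (2 * ((N : ℝ) ^ 6 * ℓ) / (slowPar N : ℝ) ^ 2) :=
            mul_le_mul_of_nonneg_left h1 hcc
        _ ≤ X := by
            rw [hX, mul_div_assoc', div_le_div_iff₀ (by positivity) (by positivity)]
            calc |C| * cD * cT * (2 * ((N : ℝ) ^ 6 * ℓ)) * (32 * ν)
                = 32 * ν * (2 * |C| * cD * cT) * ((N : ℝ) ^ 6 * ℓ) := by ring
              _ ≤ (slowPar N : ℝ) ^ 2 * ((N : ℝ) ^ 6 * ℓ) :=
                  mul_le_mul_of_nonneg_right (by linarith) (by positivity)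
              _ = _ := by ring
    have hXX : (N : ℝ) ^ 6 * ℓ / (16 * ν) = 2 * X := by rw [hX]; field_simp; ring
    linarith
  obtain ⟨N₀, hN₀⟩ := eventually_atTop.1 hev'
  choose P hP using hN₀
  refine hC Dn Tn hDT hT (fun N => if h : N₀ ≤ N then P N h else 0) ?_
  filter_upwards [eventually_ge_atTop N₀] with N hN
  rw [dif_pos hN]
  exact hP N hN

theorem eq_zero_of_sum_pow {β : ℂ} (hdeg : (minpoly ℚ β).natDegree = 3) (x : Fin 3 → ℚ)
    (h : ∑ i, (x i : ℂ) * β ^ (i : ℕ) = 0) : x = 0 := by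
  have hli := Fintype.linearIndependent_iff.1
    ((linearIndependent_pow (K := ℚ) β).comp (Fin.cast hdeg.symm) (Fin.cast_injective _)) x
  refine funext (hli ?_)
  simpa [Rat.smul_def] using h

/-- A relation `β' ³ = c₀ + c₁ β' + c₂ β' ²` for an integral multiple. -/
theorem exists_integral_multiple {β : ℂ} (hdeg : (minpoly ℚ β).natDegree = 3) :
    ∃ m : ℕ, 0 < m ∧ ∃ c : Fin 3 → ℤ,
      ((m : ℂ) * β) ^ 3 = ∑ i, (c i : ℂ) * ((m : ℂ) * β) ^ (i : ℕ) ∧
      ∀ x : Fin 3 → ℤ, ∑ i, (x i : ℂ) * ((m : ℂ) * β) ^ (i : ℕ) = 0 → x = 0 := by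
  have hβ : IsIntegral ℚ β := by
    by_contra h
    rw [minpoly.eq_zero h] at hdeg
    simp at hdeg
  obtain ⟨m, hm⟩ := hβ.exists_multiple_integral_of_isLocalization (nonZeroDivisors ℤ) β
  set z : ℤ := (m : ℤ) with hz
  have hz0 : z ≠ 0 := nonZeroDivisors.ne_zero m.2
  refine ⟨z.natAbs, Int.natAbs_pos.2 hz0, ?_⟩
  set γ : ℂ := (z.natAbs : ℂ) * β with hγ
  have hint : IsIntegral ℤ γ := by
    have h1 : IsIntegral ℤ ((z : ℂ) * β) := by
      simpa [Submonoid.smul_def, hz, zsmul_eq_mul] using hm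
    rcases Int.natAbs_eq z with e | e
    · rw [hγ, show ((z.natAbs : ℕ) : ℂ) = (z : ℂ) by rw [← Int.cast_natCast, ← e]]
      exact h1
    · rw [hγ, show ((z.natAbs : ℕ) : ℂ) = -(z : ℂ) by
        rw [← Int.cast_natCast, ← Int.cast_neg, show -z = (z.natAbs : ℤ) by omega], neg_mul]
      exact h1.neg
  have hm0 : ((z.natAbs : ℕ) : ℚ) ≠ 0 := by exact_mod_cast Int.natAbs_ne_zero.2 hz0
  have hindQ : ∀ x : Fin 3 → ℚ, ∑ i, (x i : ℂ) * γ ^ (i : ℕ) = 0 → x = 0 := fun x h => by
    have h0 := eq_zero_of_sum_pow hdeg (fun i => x i * (z.natAbs : ℚ) ^ (i : ℕ)) (by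
      rw [← h]
      refine sum_congr rfl fun i _ => ?_
      rw [hγ, mul_pow]
      push_cast
      ring)
    funext i
    exact (mul_eq_zero.1 (congrFun h0 i)).resolve_right (pow_ne_zero _ hm0)
  set Q := minpoly ℚ γ with hQ
  have hQint : IsIntegral ℚ γ := hint.tower_top
  have hQ3 : Q.natDegree ≤ 3 := by
    have h := scaleRoots_aeval_eq_zero (r := ((z.natAbs : ℕ) : ℚ)) (minpoly.aeval ℚ β)
    rw [map_natCast, ← hγ] at h
    refine (natDegree_le_of_dvd (minpoly.dvd ℚ γ h)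
      ((monic_scaleRoots_iff _).2 (minpoly.monic hβ)).ne_zero).trans_eq ?_
    rw [natDegree_scaleRoots, hdeg]
  have hQ2 : 3 ≤ Q.natDegree := by
    by_contra h
    have h0 := hindQ (fun i => Q.coeff i) (by
      rw [← minpoly.aeval ℚ γ, aeval_eq_sum_range' (n := 3) (show Q.natDegree < 3 by omega),
        sum_range]
      simp [Rat.smul_def, hQ])
    have h1 := congrFun h0 ⟨Q.natDegree, by omega⟩
    exact (minpoly.monic hQint).ne_zero (leadingCoeff_eq_zero.1 h1)
  refine ⟨fun i => -(minpoly ℤ γ).coeff i, ?_, fun x h => ?_⟩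
  · have hd : (minpoly ℤ γ).natDegree = 3 := by
      have h := minpoly.isIntegrallyClosed_eq_field_fractions' ℚ hint
      have h' : Q.natDegree = (minpoly ℤ γ).natDegree := by
        rw [hQ, h, natDegree_map_eq_of_injective (IsFractionRing.injective ℤ ℚ)]
      omega
    have h := minpoly.aeval ℤ γ
    rw [aeval_eq_sum_range' (n := 4) (by omega), sum_range_succ, sum_range,
      show (minpoly ℤ γ).coeff 3 = 1 by rw [← hd]; exact minpoly.monic hint, one_smul] at h
    rw [eq_neg_of_add_eq_zero_right h, ← sum_neg_distrib]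
    exact sum_congr rfl fun i _ => by rw [zsmul_eq_mul, Int.cast_neg, neg_mul]
  · have h0 := hindQ (fun i => (x i : ℚ)) (by push_cast; exact h)
    funext i
    simpa using congrFun h0 i

/-- **Gelfond, 1949.** -/
theorem gelfond_cubic {lg β : ℂ} (hlg : lg ≠ 0) (hα : IsAlgebraic ℚ (Complex.exp lg))
    (hdeg : (minpoly ℚ β).natDegree = 3) :
    AlgebraicIndependent ℚ ![Complex.exp (β * lg), Complex.exp (β ^ 2 * lg)] := by
  have hβ : IsAlgebraic ℚ β := by
    refine IsIntegral.isAlgebraic ?_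
    by_contra h
    rw [minpoly.eq_zero h] at hdeg
    simp at hdeg
  have hirr : ∀ r : ℚ, β ≠ r := fun r h => by
    rw [h, show ((r : ℂ)) = algebraMap ℚ ℂ r from (eq_ratCast _ r).symm, minpoly.eq_X_sub_C,
      natDegree_X_sub_C] at hdeg
    omega
  set θ := Complex.exp (β * lg) with hθdef
  set η := Complex.exp (β ^ 2 * lg) with hηdef
  have hθ : Transcendental ℚ θ := FA.GelfondSchneider.transcendental_exp_mul hlg hβ hirr hα
  by_contra hdep
  have hη : IsAlgebraic ℚ⟮θ⟯ η := by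
    by_contra hηt
    refine hdep ?_
    have h1 : AlgebraicIndependent ℚ (fun _ : Unit => θ) :=
      (algebraicIndependent_unique_type_iff).2 hθ
    have h2 : AlgebraicIndependent ℚ (fun o : Option Unit => o.elim η fun _ => θ) := by
      rw [h1.option_iff_transcendental, Set.range_const,
        ← IntermediateField.transcendental_adjoin_iff]
      exact hηt
    have h3 := h2.comp ![some (), none] (by decide)
    convert h3 using 1
    ext i
    fin_cases i <;> rfl
  obtain ⟨m, hm, c, hrel, hind⟩ := exists_integral_multiple hdeg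
  set γ : ℂ := (m : ℂ) * β with hγ
  -- everything is algebraic over `ℚ(θ)`
  have hθ' : IsIntegral ℚ⟮θ⟯ θ := isIntegral_algebraMap
    (x := (⟨θ, IntermediateField.mem_adjoin_simple_self ℚ θ⟩ : ℚ⟮θ⟯))
  have hη' : IsIntegral ℚ⟮θ⟯ η := hη.isIntegral
  have hα' : IsIntegral ℚ⟮θ⟯ (Complex.exp lg) := hα.isIntegral.tower_top
  have hγ' : IsIntegral ℚ⟮θ⟯ γ := (isIntegral_algebraMap (x := ((m : ℚ⟮θ⟯)))).mul
    (hβ.isIntegral.tower_top) |> fun h => by simpa [hγ] using h
  have hexp : ∀ i : Fin 3, IsIntegral ℚ⟮θ⟯ (Complex.exp (γ ^ (i : ℕ) * lg)) := fun i => by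
    fin_cases i
    · simpa using hα'
    · simp only [pow_one]
      rw [hγ, mul_assoc, Complex.exp_nat_mul]
      exact hθ'.pow m
    · simp only
      rw [show γ ^ 2 * lg = ((m ^ 2 : ℕ) : ℂ) * (β ^ 2 * lg) by rw [hγ]; push_cast; ring,
        Complex.exp_nat_mul]
      exact hη'.pow _
  have hgen : ∀ x, IsIntegral ℚ⟮θ⟯ (gen γ lg x) := by
    rintro (i | ⟨i, b⟩)
    · exact hγ'.pow _
    · cases b
      · simp only [gen, Bool.false_eq_true, if_false, neg_one_mul, Complex.exp_neg]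
        exact (hexp i).inv
      · simpa [gen] using hexp i
  obtain ⟨ν, w, q, M, hν, hw, hq, hact, hindep⟩ := exists_matrices hθ (gen γ lg) hgen
  exact not_data (θ := θ) (β := γ) (lg := lg)
    ⟨ν, w, q, M, hν, hw, hq, fun x => hact x, hindep⟩ c hθ hlg hrel hind

end FA.GelfondCubic

end
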