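import Fermat.Agent.GelfondCubic.Auxiliary
import Fermat.Agent.GelfondCubic.Parameters
import Fermat.Agent.GelfondCubic.ZeroEstimate

/-!
# The auxiliary function and the small polynomial

Siegel's lemma makes `expPoly` vanish to order `ordLow` at the points `l x`; the zero estimate
gives a nonzero value of order below `ordHigh`, which is small by the Schwarz lemma, and its norm
to `ℤ[θ]` is a small polynomial at `θ`.
-/

set_option autoImplicit false

noncomputable section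

open Finset Polynomial Matrix

namespace FA.GelfondCubic

variable {θ β lg : ℂ} (D : Data θ β lg) (c : Fin 3 → ℤ) (N : ℕ)

/-- The range of the `λ`. -/
def sideA : ℕ := N ^ 2

/-- The range of the `l`. -/
def sideS : ℕ := N * slowPar N

/-- The order of vanishing. -/
def ordLow : ℕ := N ^ 3 / (4 * D.ν * slowPar N ^ 3)

/-- The order of the nonzero value. -/
def ordHigh : ℕ := 4 * N ^ 3 / slowPar N ^ 3

/-- The exponent of the padding. -/
def padExp : ℕ := coordBound c * (sideA N * sideS N)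

/-- The number `γ (t, l)`. -/
def valueSum (p : (Fin 3 → Fin (sideA N)) → ℤ[X]) (t : ℕ) (l : Fin 3 → Fin (sideS N)) : ℂ :=
  ∑ a, aeval θ (p a) * (point β a ^ t * Complex.exp (point β a * point β l * lg))

/-- The sum of the `|β| ^ i`. -/
def betaSize (β : ℂ) : ℝ := ∑ i : Fin 3, ‖β‖ ^ (i : ℕ)

theorem one_le_betaSize (β : ℂ) : 1 ≤ betaSize β := by
  simp only [betaSize, Fin.sum_univ_three, Fin.val_zero, Fin.val_one, Fin.val_two, pow_zero,
    pow_one]
  nlinarith [norm_nonneg β, sq_nonneg ‖β‖]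

theorem norm_point_le {S : ℕ} (l : Fin 3 → Fin S) : ‖point β l‖ ≤ betaSize β * S := by
  rw [point, betaSize, sum_mul]
  refine (norm_sum_le _ _).trans (sum_le_sum fun i _ => ?_)
  rw [norm_mul, norm_pow, Complex.norm_natCast, mul_comm]
  exact mul_le_mul_of_nonneg_left (Nat.cast_le.2 (l i).2.le) (by positivity)

theorem point_injective {S : ℕ}
    (hind : ∀ x : Fin 3 → ℤ, ∑ i, (x i : ℂ) * β ^ (i : ℕ) = 0 → x = 0) :
    Function.Injective (point β : (Fin 3 → Fin S) → ℂ) := fun a b h => by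
  have h0 := hind (fun i => ((a i : ℕ) : ℤ) - ((b i : ℕ) : ℤ)) (by
    simp only [Int.cast_sub, Int.cast_natCast, sub_mul, sum_sub_distrib]
    exact sub_eq_zero.2 h)
  funext i
  have := congrFun h0 i
  simp only [Pi.zero_apply] at this
  exact Fin.ext (by omega)

theorem iteratedDeriv_aux (p : (Fin 3 → Fin (sideA N)) → ℤ[X]) (t : ℕ)
    (l : Fin 3 → Fin (sideS N)) :
    iteratedDeriv t (expPoly (fun a => aeval θ (p a))
      (fun a : Fin 3 → Fin (sideA N) => point β a * lg)) (point β l) =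
        lg ^ t * valueSum (θ := θ) (β := β) (lg := lg) N p t l := by
  rw [iteratedDeriv_expPoly, valueSum, mul_sum]
  refine sum_congr rfl fun a _ => ?_
  rw [mul_pow, show point β a * lg * point β l = point β a * point β l * lg by ring]
  ring

/-- The matrix of `γ (t, l)`. -/
def sumMat (p : (Fin 3 → Fin (sideA N)) → ℤ[X]) (t : ℕ) (l : Fin 3 → Fin (sideS N)) :
    Matrix (Fin D.ν) (Fin D.ν) ℤ[X] :=
  ∑ a, p a • valueMat D c (padExp c N) t a l

theorem acts_sumMat (hrel : β ^ 3 = ∑ i, (c i : ℂ) * β ^ (i : ℕ))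
    (p : (Fin 3 → Fin (sideA N)) → ℤ[X]) (t : ℕ) (l : Fin 3 → Fin (sideS N)) :
    Acts θ D.w (sumMat D c N p t l)
      (aeval θ D.q ^ (2 * t + padExp c N) * valueSum (θ := θ) (β := β) (lg := lg) N p t l) := by
  rw [valueSum, mul_sum]
  refine acts_sum _ _ _ fun a _ => ?_
  rw [mul_left_comm]
  exact (acts_valueMat D hrel t a l (sum_natAbs_prodCoord_le c a l)).smul (p a)

/-- **The auxiliary polynomials.** -/
theorem exists_aux (hθ : Transcendental ℚ θ) (hrel : β ^ 3 = ∑ i, (c i : ℂ) * β ^ (i : ℕ))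
    (hk : 1 ≤ slowPar N)
    (hlow : 1 ≤ ordLow D N) (hle : ordLow D N ≤ ordHigh N) {d : ℕ} {B : ℝ} (hB : 1 ≤ B)
    (hsmall : ∀ t ≤ ordHigh N, ∀ (a : Fin 3 → Fin (sideA N)) (l : Fin 3 → Fin (sideS N)),
      Small (valueMat D c (padExp c N) t a l) d B) :
    ∃ p : (Fin 3 → Fin (sideA N)) → ℤ[X], p ≠ 0 ∧ (∀ a, (p a).natDegree ≤ d) ∧
      (∀ a, len (p a) ≤ (d + 1 : ℕ) * ((N ^ 6 * (d + 1) : ℕ) * B)) ∧
      ∀ t < ordLow D N, ∀ l, valueSum (θ := θ) (β := β) (lg := lg) N p t l = 0 := by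
  classical
  obtain ⟨hN, -⟩ := one_le_of_slowPar hk
  have hS : 0 < sideS N := Nat.mul_pos hN hk
  have hA : 0 < sideA N := pow_pos hN 2
  have : Nonempty (Fin (sideS N)) := ⟨⟨0, hS⟩⟩
  have : Nonempty (Fin (sideA N)) := ⟨⟨0, hA⟩⟩
  have : Nonempty (Fin (ordLow D N)) := ⟨⟨0, hlow⟩⟩
  have : Nonempty (Fin D.ν) := ⟨⟨0, D.hν⟩⟩
  set i₀ : Fin D.ν := ⟨0, D.hν⟩
  have hcardΛ : Fintype.card (Fin 3 → Fin (sideA N)) = N ^ 6 := by
    rw [Fintype.card_eq_nat_card, Nat.card_fun, Nat.card_fin, Nat.card_fin, sideA]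
    ring
  have hcount : 2 * (Fintype.card (Fin (ordLow D N) × (Fin 3 → Fin (sideS N)) × Fin D.ν) *
      (d + d + 1)) ≤ Fintype.card (Fin 3 → Fin (sideA N)) * (d + 1) := by
    rw [hcardΛ]
    simp only [Fintype.card_prod, Fintype.card_fun, Fintype.card_fin]
    have h4 : ordLow D N * (4 * D.ν * slowPar N ^ 3) ≤ N ^ 3 := Nat.div_mul_le_self _ _
    calc 2 * (ordLow D N * (sideS N ^ 3 * D.ν) * (d + d + 1))
        ≤ 2 * (ordLow D N * (sideS N ^ 3 * D.ν) * (2 * (d + 1))) := by gcongr; omega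
      _ = N ^ 3 * (ordLow D N * (4 * D.ν * slowPar N ^ 3)) * (d + 1) := by rw [sideS]; ring
      _ ≤ N ^ 3 * N ^ 3 * (d + 1) := by gcongr
      _ = N ^ 6 * (d + 1) := by ring
  obtain ⟨p, hp0, hpd, hpl, hp⟩ := exists_small_solution
    (fun (e : Fin (ordLow D N) × (Fin 3 → Fin (sideS N)) × Fin D.ν) a =>
      valueMat D c (padExp c N) e.1 a e.2.1 i₀ e.2.2) hB
    (fun e a => (hsmall e.1 (e.1.2.le.trans hle) a e.2.1 i₀ e.2.2).1)
    (fun e a => (hsmall e.1 (e.1.2.le.trans hle) a e.2.1 i₀ e.2.2).2) hcount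
  rw [hcardΛ] at hpl
  refine ⟨p, hp0, hpd, hpl, fun t ht l => ?_⟩
  have hrow : ∀ j, sumMat D c N p t l i₀ j = 0 := fun j => by
    simp only [sumMat, Matrix.sum_apply, Matrix.smul_apply, smul_eq_mul]
    rw [← hp (⟨t, ht⟩, l, j)]
    exact sum_congr rfl fun a _ => mul_comm _ _
  have h := congrFun (acts_sumMat D c N hrel p t l) i₀
  rw [mulVec, dotProduct, sum_eq_zero fun j _ => by
    simp [hrow j], Pi.smul_apply, smul_eq_mul, eq_comm, mul_eq_zero, mul_eq_zero] at h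
  rcases h with (h | h) | h
  · exact absurd (pow_eq_zero_iff'.1 h).1 (aeval_ne_zero hθ D.hq)
  · exact h
  · exact absurd h (D.hw i₀)

/-- **A nonzero value.** -/
theorem exists_value_ne_zero (hθ : Transcendental ℚ θ) (hlg : lg ≠ 0)
    (hind : ∀ x : Fin 3 → ℤ, ∑ i, (x i : ℂ) * β ^ (i : ℕ) = 0 → x = 0) (hk : 1 ≤ slowPar N)
    (hbig : 18 * betaSize β ^ 2 * ‖lg‖ * slowPar N ≤ (N : ℝ) ^ 3)
    {p : (Fin 3 → Fin (sideA N)) → ℤ[X]} (hp : p ≠ 0) :
    ∃ t < ordHigh N, ∃ l, valueSum (θ := θ) (β := β) (lg := lg) N p t l ≠ 0 := by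
  classical
  by_contra! hall
  obtain ⟨hN, -⟩ := one_le_of_slowPar hk
  have hb := one_le_betaSize β
  set w : (Fin 3 → Fin (sideA N)) → ℂ := fun a => point β a * lg
  set R := betaSize β * sideS N with hR
  have hS : 1 ≤ sideS N := Nat.mul_pos hN hk
  have hR0 : 0 < R := mul_pos (by linarith) (by exact_mod_cast hS)
  have h := zero_estimate (fun a => aeval θ (p a)) w
    (fun a b e => point_injective hind (mul_right_cancel₀ hlg e))
    (fun e => hp (funext fun a => by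
      by_contra hne
      exact aeval_ne_zero hθ hne (congrFun e a)))
    (Δ := betaSize β * sideA N * ‖lg‖) (R := R) (by positivity)
    (fun a => by
      simp only [w, norm_mul]
      exact mul_le_mul_of_nonneg_right (norm_point_le a) (norm_nonneg _))
    hR0 (univ.image (point β : (Fin 3 → Fin (sideS N)) → ℂ))
    (fun z hz => by
      obtain ⟨l, -, rfl⟩ := mem_image.1 hz
      exact norm_point_le l)
    (m := ordHigh N) fun z hz t ht => by
      obtain ⟨l, -, rfl⟩ := mem_image.1 hz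
      rw [iteratedDeriv_aux, hall t ht l, mul_zero]
  rw [card_image_of_injective _ (point_injective hind), card_univ, Fintype.card_fun,
    Fintype.card_fun, Fintype.card_fin, Fintype.card_fin, Fintype.card_fin, sideA, ← pow_mul,
    show 2 * 3 = 6 from rfl] at h
  set n := N ^ 6 with hn
  have hM : 3 * n < ordHigh N * sideS N ^ 3 := by
    have hkN : slowPar N ^ 3 ≤ N := slowPar_pow_le N (by norm_num) (by norm_num)
    have hlt : 4 * N ^ 3 < ordHigh N * slowPar N ^ 3 + slowPar N ^ 3 :=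
      Nat.lt_div_mul_add (pow_pos hk 3)
    have hN3 : slowPar N ^ 3 ≤ N ^ 3 := hkN.trans (Nat.le_self_pow (by norm_num) N)
    have : 3 * N ^ 3 < ordHigh N * slowPar N ^ 3 := by omega
    calc 3 * n = 3 * N ^ 3 * N ^ 3 := by rw [hn]; ring
      _ < ordHigh N * slowPar N ^ 3 * N ^ 3 := Nat.mul_lt_mul_of_pos_right this (pow_pos hN 3)
      _ = _ := by rw [sideS]; ring
  have hexp : Real.exp (18 * R * (betaSize β * (N ^ 2 : ℕ) * ‖lg‖)) ≤ 3 ^ n := by
    refine (Real.exp_le_exp.2 (?_ : _ ≤ (n : ℝ) * 1)).trans ?_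
    · rw [hR, sideS, hn, mul_one]
      push_cast
      calc _ = 18 * betaSize β ^ 2 * ‖lg‖ * slowPar N * (N : ℝ) ^ 3 := by ring
        _ ≤ (N : ℝ) ^ 3 * (N : ℝ) ^ 3 := mul_le_mul_of_nonneg_right hbig (by positivity)
        _ = _ := by ring
    · rw [Real.exp_nat_mul]
      exact pow_le_pow_left₀ (Real.exp_pos _).le (Real.exp_one_lt_three.le) _
  have hlt : (n : ℝ) * 9 ^ n * (3 : ℝ) ^ n < (4 : ℝ) ^ (ordHigh N * sideS N ^ 3) := by
    calc (n : ℝ) * 9 ^ n * (3 : ℝ) ^ n ≤ 2 ^ n * 9 ^ n * 3 ^ n := by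
          gcongr
          exact_mod_cast (Nat.lt_two_pow_self).le
      _ ≤ (4 : ℝ) ^ (3 * n) := by
          rw [pow_mul, ← mul_pow, ← mul_pow]
          exact pow_le_pow_left₀ (by norm_num) (by norm_num) n
      _ < _ := pow_lt_pow_right₀ (by norm_num) hM
  exact absurd (h.trans (mul_le_mul_of_nonneg_left hexp (by positivity))) hlt.not_ge

/-- **Its size.** -/
theorem norm_valueSum_le (hlg : lg ≠ 0) (hind : ∀ x : Fin 3 → ℤ,
      ∑ i, (x i : ℂ) * β ^ (i : ℕ) = 0 → x = 0) (hk : 1 ≤ slowPar N)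
    (hr : 3 * (betaSize β + 1) * slowPar N ≤ N)
    {p : (Fin 3 → Fin (sideA N)) → ℤ[X]} {P : ℝ} (hP : ∀ a, ‖aeval θ (p a)‖ ≤ P)
    (hzero : ∀ t < ordLow D N, ∀ l, valueSum (θ := θ) (β := β) (lg := lg) N p t l = 0)
    (t : ℕ) (l : Fin 3 → Fin (sideS N)) :
    ‖valueSum (θ := θ) (β := β) (lg := lg) N p t l‖ ≤ ‖lg‖⁻¹ ^ t * (t.factorial *
      ((N : ℝ) ^ 6 * (P * Real.exp (betaSize β * ‖lg‖ * (N : ℝ) ^ 5)) *
        ((2 : ℝ) ^ Nat.log 2 N)⁻¹ ^ (ordLow D N * sideS N ^ 3))) := by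
  classical
  obtain ⟨hN, -⟩ := one_le_of_slowPar hk
  have hN1 : (1 : ℝ) ≤ N := by exact_mod_cast hN
  have hk1 : (1 : ℝ) ≤ slowPar N := by exact_mod_cast hk
  have hb := one_le_betaSize β
  set a : (Fin 3 → Fin (sideA N)) → ℂ := fun x => aeval θ (p x)
  set w : (Fin 3 → Fin (sideA N)) → ℂ := fun x => point β x * lg
  set r := betaSize β * sideS N + 1 with hr'
  set R := (N : ℝ) ^ 3 with hR
  have hS : (sideS N : ℝ) = N * slowPar N := by rw [sideS]; push_cast; ring
  have hrb : r * (2 * (N : ℝ) + 1) ≤ R := by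
    have h1 : r ≤ (betaSize β + 1) * ((N : ℝ) * slowPar N) := by
      rw [hr', hS, add_mul, one_mul]
      exact add_le_add le_rfl (one_le_mul_of_one_le_of_one_le hN1 hk1)
    calc r * (2 * (N : ℝ) + 1) ≤ (betaSize β + 1) * ((N : ℝ) * slowPar N) * (3 * N) :=
          mul_le_mul h1 (by linarith) (by positivity) (by positivity)
      _ = 3 * (betaSize β + 1) * slowPar N * (N : ℝ) ^ 2 := by ring
      _ ≤ (N : ℝ) * (N : ℝ) ^ 2 := mul_le_mul_of_nonneg_right hr (by positivity)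
      _ = R := by rw [hR]; ring
  have hr0 : 0 < r := by positivity
  have hrR : r < R := lt_of_lt_of_le (lt_mul_of_one_lt_right hr0 (by linarith)) hrb
  have hq : 2 * r / (R - r) ≤ ((2 : ℝ) ^ Nat.log 2 N)⁻¹ := by
    have h2 : (2 : ℝ) ^ Nat.log 2 N ≤ N := by exact_mod_cast Nat.pow_log_le_self 2 (by omega)
    rw [div_le_iff₀ (by linarith), inv_mul_eq_div, le_div_iff₀ (by positivity)]
    nlinarith [mul_le_mul_of_nonneg_left h2 hr0.le]
  have hB : ∀ z : ℂ, ‖z‖ ≤ R → ‖expPoly a w z‖ ≤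
      (N : ℝ) ^ 6 * (P * Real.exp (betaSize β * ‖lg‖ * (N : ℝ) ^ 5)) := fun z hz => by
    refine (norm_expPoly_le a w hP (Δ := betaSize β * sideA N * ‖lg‖) (fun x => ?_) hz).trans_eq ?_
    · simp only [w, norm_mul]
      exact mul_le_mul_of_nonneg_right (norm_point_le x) (norm_nonneg _)
    · rw [Fintype.card_eq_nat_card, Nat.card_fun, Nat.card_fin, Nat.card_fin, sideA, hR]
      push_cast
      ring_nf
  set Z := (univ : Finset (Fin 3 → Fin (sideS N))).image (point β)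
  have hcard : Z.card = sideS N ^ 3 := by
    rw [card_image_of_injective _ (point_injective hind), card_univ]
    simp
  have hbound : ∀ z : ℂ, ‖z‖ ≤ r → ‖expPoly a w z‖ ≤
      (N : ℝ) ^ 6 * (P * Real.exp (betaSize β * ‖lg‖ * (N : ℝ) ^ 5)) *
        ((2 : ℝ) ^ Nat.log 2 N)⁻¹ ^ (ordLow D N * sideS N ^ 3) := fun z hz => by
    refine (norm_le_of_zeros (differentiable_expPoly a w) Z (ordLow D N) hrR hr0.le
      (fun x hx => ?_) (fun x hx s hs => ?_) hB hz).trans ?_
    · obtain ⟨l', -, rfl⟩ := mem_image.1 hx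
      exact (norm_point_le l').trans (le_add_of_nonneg_right zero_le_one)
    · obtain ⟨l', -, rfl⟩ := mem_image.1 hx
      rw [iteratedDeriv_aux, hzero s hs l', mul_zero]
    · rw [hcard]
      exact mul_le_mul_of_nonneg_left
        (pow_le_pow_left₀ (div_nonneg (by positivity) (by linarith)) hq _)
        ((norm_nonneg _).trans (hB 0 (by simp [hR])))
  have hder := Complex.norm_iteratedDeriv_le_of_forall_mem_sphere_norm_le t one_pos
    (differentiable_expPoly a w).diffContOnCl fun z hz => hbound z (by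
      rw [mem_sphere_iff_norm] at hz
      have := norm_le_norm_add_norm_sub' z (point β l)
      have := norm_point_le (β := β) l
      rw [hz] at *
      linarith)
  rw [iteratedDeriv_aux, one_pow, div_one, norm_mul, norm_pow] at hder
  rw [inv_pow ‖lg‖, ← div_eq_inv_mul, le_div_iff₀ (pow_pos (norm_pos_iff.2 hlg) t), mul_comm]
  exact hder

end FA.GelfondCubic

end
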