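import Mathlib.Analysis.Complex.Basic
import Mathlib.FieldTheory.RatFunc.IntermediateField
import Mathlib.FieldTheory.IntermediateField.Algebraic
import Mathlib.FieldTheory.IntermediateField.Adjoin.Algebra
import Mathlib.RingTheory.Algebraic.Integral
import Mathlib.RingTheory.Localization.Integral

/-!
# Multiplication matrices over `ℤ[θ]`

Finitely many numbers algebraic over `ℚ(θ)` act on a basis of the field they generate, after
multiplication by one denominator, through matrices over `ℤ[θ]`.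
-/

set_option autoImplicit false

noncomputable section

open Finset Polynomial Matrix
open scoped IntermediateField

namespace FA.GelfondCubic

theorem exists_int_num {x θ : ℂ} (hx : x ∈ ℚ⟮θ⟯) :
    ∃ h f : ℤ[X], h ≠ 0 ∧ x * aeval θ h = aeval θ f := by
  obtain ⟨r, s, rfl⟩ := (IntermediateField.mem_adjoin_simple_iff ℚ x).1 hx
  by_cases hs : aeval θ s = 0
  · exact ⟨1, 0, one_ne_zero, by simp [hs]⟩
  obtain ⟨a, haM, ha⟩ := IsLocalization.integerNormalization_spec (nonZeroDivisors ℤ) r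
  obtain ⟨b, hbM, hb⟩ := IsLocalization.integerNormalization_spec (nonZeroDivisors ℤ) s
  set r' := IsLocalization.integerNormalization (nonZeroDivisors ℤ) r
  set s' := IsLocalization.integerNormalization (nonZeroDivisors ℤ) s
  have hr' : aeval θ r' = (a : ℂ) * aeval θ r := by
    rw [← aeval_map_algebraMap ℚ, ha, map_zsmul, zsmul_eq_mul]
  have hs' : aeval θ s' = (b : ℂ) * aeval θ s := by
    rw [← aeval_map_algebraMap ℚ, hb, map_zsmul, zsmul_eq_mul]
  have hb0 : b ≠ 0 := nonZeroDivisors.ne_zero hbM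
  have ha0 : a ≠ 0 := nonZeroDivisors.ne_zero haM
  refine ⟨C (a : ℤ) * s', C (b : ℤ) * r', mul_ne_zero (C_ne_zero.2 ha0) fun e => ?_, ?_⟩
  · rw [e, map_zero, eq_comm, mul_eq_zero] at hs'
    exact hs'.elim (Int.cast_ne_zero.2 hb0) hs
  · simp only [map_mul, eq_intCast, map_intCast, hr', hs']
    field_simp

theorem aeval_ne_zero {θ : ℂ} (hθ : Transcendental ℚ θ) {p : ℤ[X]} (hp : p ≠ 0) :
    aeval θ p ≠ 0 := fun h => hθ ⟨p.map (algebraMap ℤ ℚ),
  (Polynomial.map_ne_zero_iff (IsFractionRing.injective ℤ ℚ)).2 hp, by rwa [aeval_map_algebraMap]⟩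

/-- **Multiplication matrices.** -/
theorem exists_matrices {θ : ℂ} (hθ : Transcendental ℚ θ) {ι : Type*} [Fintype ι] (g : ι → ℂ)
    (hg : ∀ i, IsIntegral ℚ⟮θ⟯ (g i)) :
    ∃ (ν : ℕ) (w : Fin ν → ℂ) (q : ℤ[X]) (M : ι → Matrix (Fin ν) (Fin ν) ℤ[X]),
      0 < ν ∧ (∀ i, w i ≠ 0) ∧ q ≠ 0 ∧
      (∀ x, (M x).map (aeval θ) *ᵥ w = (aeval θ q * g x) • w) ∧
      ∀ c : Fin ν → ℤ[X], ∑ i, aeval θ (c i) * w i = 0 → c = 0 := by
  classical
  set K := IntermediateField.adjoin ℚ⟮θ⟯ (Set.range g) with hK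
  have : FiniteDimensional ℚ⟮θ⟯ K := IntermediateField.finiteDimensional_adjoin fun x hx => by
    obtain ⟨i, rfl⟩ := hx
    exact hg i
  set b := Module.finBasis ℚ⟮θ⟯ K
  set ν := Module.finrank ℚ⟮θ⟯ K
  have hgK : ∀ x, g x ∈ K := fun x => IntermediateField.subset_adjoin _ _ ⟨x, rfl⟩
  set e : ι × Fin ν × Fin ν → ℂ := fun p =>
    ((b.repr (⟨g p.1, hgK p.1⟩ * b p.2.1) p.2.2 : ℚ⟮θ⟯) : ℂ) with he
  choose h f hh hf using fun p => exists_int_num (θ := θ) (x := e p) (SetLike.coe_mem _)
  refine ⟨ν, fun i => (b i : ℂ), ∏ p, h p,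
    fun x => Matrix.of fun i l => f (x, i, l) * ∏ p ∈ univ.erase (x, i, l), h p,
    Module.finrank_pos, fun i e => b.ne_zero i (Subtype.ext e),
    prod_ne_zero_iff.2 fun p _ => hh p, fun x => funext fun i => ?_, fun c hc => ?_⟩
  · simp only [mulVec, dotProduct, Matrix.map_apply, Matrix.of_apply, Pi.smul_apply, smul_eq_mul,
      map_mul, ← hf]
    have hrepr := congrArg (fun y : K => (y : ℂ)) (b.sum_repr (⟨g x, hgK x⟩ * b i))
    simp only [IntermediateField.coe_sum, IntermediateField.coe_mul, IntermediateField.coe_smul,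
      IntermediateField.smul_def, smul_eq_mul] at hrepr
    rw [mul_assoc, ← hrepr, mul_sum]
    refine sum_congr rfl fun l _ => ?_
    rw [mul_assoc (e _), ← map_mul, mul_prod_erase _ h (mem_univ _)]
    simp only [he]
    ring
  · have hmem : ∀ p : ℤ[X], aeval θ p ∈ ℚ⟮θ⟯ := fun p => by
      rw [← aeval_map_algebraMap ℚ]
      exact IntermediateField.algebra_adjoin_le_adjoin ℚ _
        (Algebra.adjoin_singleton_eq_range_aeval ℚ θ ▸ ⟨_, rfl⟩)
    have h0 := Fintype.linearIndependent_iff.1 b.linearIndependent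
      (fun i => ⟨aeval θ (c i), hmem _⟩) (Subtype.ext (by
        simp only [IntermediateField.coe_sum, IntermediateField.coe_smul,
          IntermediateField.smul_def, smul_eq_mul, IntermediateField.coe_zero]
        exact hc))
    refine funext fun i => ?_
    by_contra hne
    exact aeval_ne_zero hθ hne (congrArg Subtype.val (h0 i))

end FA.GelfondCubic

end
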