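import Fermat.Agent.GelfondCubic.Length
import Mathlib.RingTheory.Polynomial.Resultant.Basic
import Mathlib.LinearAlgebra.Matrix.Adjugate
import Mathlib.Data.Rat.Cast.CharZero

/-!
# Coprime integral polynomials are not both small at one point

The row vector `(θ ^ i)` takes the Sylvester matrix to the values `g θ θ ^ j`, `f θ θ ^ j`, so the
resultant, a nonzero integer, is small with them.
-/

set_option autoImplicit false

noncomputable section

open Finset Polynomial Matrix

namespace FA.GelfondCubic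

theorem sum_fin_shift {M : Type*} [AddCommMonoid M] {N a d : ℕ} (h : a + d < N) (F : ℕ → M) :
    ∑ i : Fin N, (if (i : ℕ) ∈ Set.Icc a (a + d) then F i else 0) =
      ∑ k ∈ range (d + 1), F (a + k) := by
  classical
  rw [Fin.sum_univ_eq_sum_range (fun i => if i ∈ Set.Icc a (a + d) then F i else 0) N, ← sum_filter,
    show (range N).filter (fun i => i ∈ Set.Icc a (a + d)) = Finset.Ico a (a + d + 1) by
      ext i
      simp only [mem_filter, mem_range, Set.mem_Icc, Finset.mem_Ico]
      omega,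
    sum_Ico_eq_sum_range, show a + d + 1 - a = d + 1 by omega]

/-- The column of the Sylvester matrix against a row vector of powers. -/
theorem sum_pow_mul_col (θ : ℂ) (g : ℤ[X]) {N a d : ℕ} (h : a + d < N) (hg : g.natDegree ≤ d) :
    ∑ i : Fin N, θ ^ (i : ℕ) *
        (if (i : ℕ) ∈ Set.Icc a (a + d) then ((g.coeff ((i : ℕ) - a) : ℤ) : ℂ) else 0) =
      θ ^ a * aeval θ g := by
  simp only [mul_ite, mul_zero]
  rw [sum_fin_shift h (fun i => θ ^ i * ((g.coeff (i - a) : ℤ) : ℂ)),
    aeval_eq_sum_range' (Nat.lt_succ_of_le hg), mul_sum]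
  refine sum_congr rfl fun k _ => ?_
  rw [Nat.add_sub_cancel_left, zsmul_eq_mul, pow_add]
  ring

theorem sum_norm_col (g : ℤ[X]) {N a d : ℕ} (h : a + d < N) (hg : g.natDegree ≤ d) :
    ∑ i : Fin N, ‖(if (i : ℕ) ∈ Set.Icc a (a + d) then ((g.coeff ((i : ℕ) - a) : ℤ) : ℂ)
      else 0)‖ = len g := by
  simp only [apply_ite norm, norm_zero, Complex.norm_intCast]
  rw [sum_fin_shift h (fun i => |((g.coeff (i - a) : ℤ) : ℝ)|),
    len_eq_sum_range (Nat.lt_succ_of_le hg)]
  simp

theorem resultant_ne_zero_of_coprime {f g : ℤ[X]}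
    (h : IsCoprime (f.map (Int.castRingHom ℚ)) (g.map (Int.castRingHom ℚ))) :
    resultant f g ≠ 0 := fun h0 => by
  have h1 := resultant_ne_zero _ _ h
  rw [resultant_map_map, natDegree_map_eq_of_injective (RingHom.injective_int _),
    natDegree_map_eq_of_injective (RingHom.injective_int _)] at h1
  exact h1 (by rw [show f.resultant g f.natDegree g.natDegree = 0 from h0, map_zero])

/-- The resultant is small with the two values. -/
theorem one_le_max_mul (θ : ℂ) {f g : ℤ[X]} (hf : 1 ≤ f.natDegree) (hg : 1 ≤ g.natDegree)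
    (h : IsCoprime (f.map (Int.castRingHom ℚ)) (g.map (Int.castRingHom ℚ))) :
    1 ≤ max ‖aeval θ f‖ ‖aeval θ g‖ * (2 * (f.natDegree + g.natDegree : ℕ) *
      max 1 ‖θ‖ ^ (f.natDegree + g.natDegree) *
        (len g ^ f.natDegree * len f ^ g.natDegree)) := by
  classical
  set m := f.natDegree with hm
  set n := g.natDegree with hn
  set S : Matrix (Fin (m + n)) (Fin (m + n)) ℂ := (Int.castRingHom ℂ).mapMatrix (sylvester f g m n)
    with hS
  have hdet : S.det = ((resultant f g : ℤ) : ℂ) := by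
    rw [hS, ← RingHom.map_det]; rfl
  set v : Fin (m + n) → ℂ := fun i => θ ^ (i : ℕ) with hv
  set i₀ : Fin (m + n) := ⟨0, by omega⟩
  have hSentry : ∀ i j, S i j = Fin.addCases (motive := fun _ => ℂ)
      (fun j₁ : Fin m =>
        if (i : ℕ) ∈ Set.Icc (j₁ : ℕ) (j₁ + n) then ((g.coeff ((i : ℕ) - j₁) : ℤ) : ℂ) else 0)
      (fun j₁ : Fin n =>
        if (i : ℕ) ∈ Set.Icc (j₁ : ℕ) (j₁ + m) then ((f.coeff ((i : ℕ) - j₁) : ℤ) : ℂ) else 0)
      j := fun i j => by
    induction j using Fin.addCases <;> simp [hS, sylvester]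
  set Θ := max 1 ‖θ‖ with hΘ
  have hΘ1 : 1 ≤ Θ := le_max_left _ _
  set V := max ‖aeval θ f‖ ‖aeval θ g‖ with hV
  have hpow : ∀ a : ℕ, a ≤ m + n → ∀ x : ℂ, ‖x‖ ≤ V → ‖θ ^ a * x‖ ≤ V * Θ ^ (m + n) :=
    fun a ha x hx => by
      rw [norm_mul, norm_pow, mul_comm]
      exact mul_le_mul hx ((pow_le_pow_left₀ (norm_nonneg _) (le_max_right _ _) a).trans
        (pow_le_pow_right₀ hΘ1 ha)) (by positivity) ((norm_nonneg _).trans hx)
  have hvS : ∀ j, ‖(v ᵥ* S) j‖ ≤ V * Θ ^ (m + n) := fun j => by
    simp only [vecMul, dotProduct, hv, hSentry]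
    induction j using Fin.addCases with
    | left j =>
      simp only [Fin.addCases_left]
      rw [sum_pow_mul_col θ g (by omega) le_rfl]
      exact hpow _ (by omega) _ (le_max_right _ _)
    | right j =>
      simp only [Fin.addCases_right]
      rw [sum_pow_mul_col θ f (by omega) le_rfl]
      exact hpow _ (by omega) _ (le_max_left _ _)
  set ℓ : Fin (m + n) → ℝ :=
    Fin.addCases (motive := fun _ => ℝ) (fun _ => len g) (fun _ => len f) with hℓ
  have hf0 : f ≠ 0 := fun e => by simp [e] at hm; omega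
  have hg0 : g ≠ 0 := fun e => by simp [e] at hn; omega
  have hℓ1 : ∀ j, 1 ≤ ℓ j := fun j => by
    induction j using Fin.addCases <;> simp [hℓ, one_le_len hf0, one_le_len hg0]
  have hcol : ∀ j, ∑ i, ‖S i j‖ = ℓ j := fun j => by
    simp only [hSentry, hℓ]
    induction j using Fin.addCases with
    | left j => simp only [Fin.addCases_left]; exact sum_norm_col g (by omega) le_rfl
    | right j => simp only [Fin.addCases_right]; exact sum_norm_col f (by omega) le_rfl
  have hadj : ∀ j, ‖S.adjugate j i₀‖ ≤ 2 * ∏ l, ℓ l := fun j => by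
    rw [adjugate_apply]
    refine (norm_det_le_prod _).trans ?_
    have hb : ∀ l, ∑ i, ‖S.updateRow i₀ (Pi.single j 1) i l‖ ≤
        ℓ l * (if l = j then 2 else 1) := fun l => by
      refine le_trans (sum_le_sum (g := fun i => ‖S i l‖ + if i = i₀ ∧ l = j then 1 else 0)
        fun i _ => ?_) ?_
      · rcases eq_or_ne i i₀ with rfl | hi
        · by_cases hl : l = j <;> simp [hl]
        · simp [hi]
      · rw [sum_add_distrib, hcol]
        by_cases hl : l = j
        · have := hℓ1 l
          simp [hl]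
          rw [hl] at this
          linarith
        · simp [hl]
    refine (prod_le_prod (fun l _ => sum_nonneg fun _ _ => norm_nonneg _) fun l _ => hb l).trans ?_
    rw [prod_mul_distrib, Fintype.prod_ite_eq', mul_comm]
  have hprod : ∏ l, ℓ l = len g ^ m * len f ^ n := by
    rw [Fin.prod_univ_add]
    simp [hℓ]
  have e : (v ᵥ* S) ᵥ* S.adjugate = S.det • v := by
    rw [vecMul_vecMul, mul_adjugate, vecMul_smul, vecMul_one]
  have e0 : ‖S.det‖ = ‖∑ j, (v ᵥ* S) j * S.adjugate j i₀‖ := by
    rw [show ∑ j, (v ᵥ* S) j * S.adjugate j i₀ = ((v ᵥ* S) ᵥ* S.adjugate) i₀ from rfl, e]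
    simp [hv, i₀]
  have hres : (1 : ℝ) ≤ ‖S.det‖ := by
    rw [hdet, Complex.norm_intCast]
    exact_mod_cast Int.one_le_abs (resultant_ne_zero_of_coprime h)
  refine hres.trans (e0.trans_le ((norm_sum_le _ _).trans ((sum_le_card_nsmul _ _ _ fun j _ =>
    (norm_mul_le _ _).trans (mul_le_mul (hvS j) (hadj j) (norm_nonneg _)
      ((norm_nonneg _).trans (hvS j)))).trans_eq ?_)))
  rw [card_univ, Fintype.card_fin, nsmul_eq_mul, hprod]
  ring

/-- **Coprime polynomials are not both small.** -/
theorem exp_le_max (θ : ℂ) {f g : ℤ[X]} (hf : 1 ≤ f.natDegree) (hg : 1 ≤ g.natDegree)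
    (h : IsCoprime (f.map (Int.castRingHom ℚ)) (g.map (Int.castRingHom ℚ))) :
    Real.exp (-((2 + Real.log (max 1 ‖θ‖)) *
        (size f * g.natDegree + size g * f.natDegree))) ≤
      max ‖aeval θ f‖ ‖aeval θ g‖ := by
  have hf0 : f ≠ 0 := fun e => by simp [e] at hf
  have hg0 : g ≠ 0 := fun e => by simp [e] at hg
  have hΘ : (0 : ℝ) < max 1 ‖θ‖ := lt_max_of_lt_left one_pos
  have h1 := one_le_max_mul θ hf hg h
  have hlf := (Real.log_le_iff_le_exp (zero_lt_one.trans_le (one_le_len hf0))).1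
    (log_len_le_size hf0)
  have hlg := (Real.log_le_iff_le_exp (zero_lt_one.trans_le (one_le_len hg0))).1
    (log_len_le_size hg0)
  set m := f.natDegree with hm
  set n := g.natDegree with hn
  set lam := Real.log (max 1 ‖θ‖) with hlam
  have hlam0 : 0 ≤ lam := Real.log_nonneg (le_max_left _ _)
  set T := size f * n + size g * m with hT
  set E := 2 * (m + n : ℕ) * max 1 ‖θ‖ ^ (m + n) * (len g ^ m * len f ^ n) with hE
  have hmn : ((m + n : ℕ) : ℝ) ≤ T := by
    have h1 := natDegree_le_size hf0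
    have h2 := natDegree_le_size hg0
    rw [← hm] at h1; rw [← hn] at h2
    have hmr : (1 : ℝ) ≤ m := by exact_mod_cast hf
    have hnr : (1 : ℝ) ≤ n := by exact_mod_cast hg
    push_cast
    nlinarith
  have hE' : E ≤ Real.exp ((2 + lam) * T) := by
    have ha : (2 : ℝ) * (m + n : ℕ) ≤ Real.exp T := by
      have := Real.quadratic_le_exp_of_nonneg ((Nat.cast_nonneg _).trans hmn)
      nlinarith [sq_nonneg (T - 1)]
    have hb : max 1 ‖θ‖ ^ (m + n) ≤ Real.exp (lam * T) := by
      rw [← Real.exp_log hΘ, ← Real.exp_nat_mul, Real.exp_le_exp, mul_comm]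
      exact mul_le_mul_of_nonneg_left hmn hlam0
    have hc : len g ^ m * len f ^ n ≤ Real.exp T := by
      rw [hT, Real.exp_add, mul_comm (size f), mul_comm (size g), Real.exp_nat_mul,
        Real.exp_nat_mul, mul_comm (len g ^ m)]
      exact mul_le_mul (pow_le_pow_left₀ (len_nonneg _) hlf n)
        (pow_le_pow_left₀ (len_nonneg _) hlg m)
        (pow_nonneg (len_nonneg _) _) (by positivity)
    rw [show (2 + lam) * T = T + lam * T + T by ring, Real.exp_add, Real.exp_add]
    exact mul_le_mul (mul_le_mul ha hb (by positivity) (by positivity)) hc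
      (mul_nonneg (pow_nonneg (len_nonneg _) _) (pow_nonneg (len_nonneg _) _)) (by positivity)
  rw [Real.exp_neg, inv_le_iff_one_le_mul₀ (Real.exp_pos _)]
  exact h1.trans (mul_le_mul_of_nonneg_left hE' ((norm_nonneg _).trans (le_max_left _ _)))

end FA.GelfondCubic

end
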